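import Fermat.Agent.S25.H265.GDCSemi

/-!
# S25 / helper265, block GDC, part 5: existence of semilinear base changes

* `exists_semiUP` : base changes exist (tensor product).
* `semiUP_ringHom` : `φ : A → A'` exhibits `A'` as the base change of `A` along `φ`.
* `invertible_of_semiUP` : a base change of an invertible module is invertible.
* `semiUP_of_isBaseChange` / `isBaseChange_of_semiUP` : comparison with Mathlib's `IsBaseChange`
  for ambient algebra and module structures.
* `semiUP_mkQ` : `P → P ⧸ I • ⊤` is the base change along `A → A ⧸ I`.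
-/

set_option autoImplicit false
set_option linter.style.haveILetI false

universe u

open scoped TensorProduct

namespace Fermat.Agent.S25.H265

open Fermat.Agent.S25

section Congr

variable {R R' : Type u} [CommRing R] [CommRing R']
    {N N' : Type u} [AddCommGroup N] [Module R N] [AddCommGroup N'] [Module R' N']

/-- Transport of the universal property along equalities. -/
theorem SemiUP.congr {ρ ρ' : R →+* R'} (hρ : ρ = ρ') {b : N →ₛₗ[ρ] N'} {b' : N →ₛₗ[ρ'] N'}
    (hb : ∀ n, b n = b' n) (h : SemiUP ρ b) : SemiUP ρ' b' := by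
  subst hρ
  have : b = b' := LinearMap.ext hb
  subst this
  exact h

end Congr

section Exist

variable {R R' : Type u} [CommRing R] [CommRing R'] (ρ : R →+* R')

/-- A ring map `ρ : R → R'`, as a `ρ`-semilinear map. -/
def ringHomSemi : R →ₛₗ[ρ] R' where
  toFun := ρ
  map_add' := map_add ρ
  map_smul' := fun r x => by simp [smul_eq_mul]

@[simp] theorem ringHomSemi_apply (r : R) : ringHomSemi ρ r = ρ r := rfl

/-- `R'` is the base change of `R` along `ρ`. -/
theorem semiUP_ringHom : SemiUP ρ (ringHomSemi ρ) := by
  intro Q _ _ g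
  refine ⟨LinearMap.toSpanSingleton R' Q (g 1), fun n => ?_, fun y hy => ?_⟩
  · rw [LinearMap.toSpanSingleton_apply, ringHomSemi_apply, ← LinearMap.map_smulₛₗ,
      smul_eq_mul, mul_one]
  · ext
    have h1 := hy 1
    rw [ringHomSemi_apply, map_one] at h1
    rw [LinearMap.toSpanSingleton_apply, one_smul, h1]

variable (N : Type u) [AddCommGroup N] [Module R N]

/-- Comparison with Mathlib's `IsBaseChange`, for an ambient algebra structure. -/
theorem semiUP_of_isBaseChange [Algebra R R'] {N' : Type u} [AddCommGroup N'] [Module R N']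
    [Module R' N'] [IsScalarTower R R' N'] (f : N →ₗ[R] N') (hf : IsBaseChange R' f)
    (b : N →ₛₗ[algebraMap R R'] N') (hb : ∀ n, b n = f n) : SemiUP (algebraMap R R') b := by
  intro Q _ _ g
  letI : Module R Q := Module.compHom Q (algebraMap R R')
  haveI : IsScalarTower R R' Q := ⟨fun r r' n => by
    change (r • r') • n = algebraMap R R' r • (r' • n)
    rw [Algebra.smul_def, mul_smul]⟩
  let g₀ : N →ₗ[R] Q :=
    { toFun := fun n => g n
      map_add' := fun m n => g.map_add m n
      map_smul' := fun r n => LinearMap.map_smulₛₗ g r n }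
  refine ⟨hf.lift g₀, fun n => by rw [hb]; exact hf.lift_eq g₀ n, fun g' hg' => ?_⟩
  exact hf.algHom_ext _ _ (fun n => by rw [← hb, hg']; exact (hb n ▸ hf.lift_eq g₀ n).symm)

/-- Comparison with Mathlib's `IsBaseChange`, for an ambient algebra structure. -/
theorem isBaseChange_of_semiUP [Algebra R R'] {N' : Type u} [AddCommGroup N'] [Module R N']
    [Module R' N'] [IsScalarTower R R' N'] (f : N →ₗ[R] N')
    (b : N →ₛₗ[algebraMap R R'] N') (hb : ∀ n, b n = f n) (h : SemiUP (algebraMap R R') b) :
    IsBaseChange R' f := by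
  apply IsBaseChange.of_lift_unique
  intro Q _ _ _ _ g
  let g₁ : N →ₛₗ[algebraMap R R'] Q :=
    { toFun := fun n => g n
      map_add' := fun m n => g.map_add m n
      map_smul' := fun r n => by
        change g (r • n) = algebraMap R R' r • g n
        rw [g.map_smul, algebraMap_smul] }
  obtain ⟨g', hg', huniq⟩ := h Q g₁
  refine ⟨g', ?_, fun y hy => huniq y (fun n => ?_)⟩
  · ext n
    change g' (f n) = g n
    rw [← hb, hg']
    rfl
  · rw [hb]
    exact LinearMap.congr_fun hy n

/-- Base changes exist. -/
theorem exists_semiUP :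
    ∃ (N' : Type u) (_ : AddCommGroup N') (_ : Module R' N') (b : N →ₛₗ[ρ] N'), SemiUP ρ b := by
  letI : Algebra R R' := ρ.toAlgebra
  refine ⟨R' ⊗[R] N, inferInstance, inferInstance,
    { toFun := fun n => (1 : R') ⊗ₜ[R] n
      map_add' := fun m n => TensorProduct.tmul_add _ _ _
      map_smul' := fun r n => by
        change (1 : R') ⊗ₜ[R] (r • n) = ρ r • ((1 : R') ⊗ₜ[R] n)
        rw [TensorProduct.smul_tmul', smul_eq_mul, mul_one, ← TensorProduct.smul_tmul]
        congr 1
        change ρ r * 1 = ρ r
        rw [mul_one] }, ?_⟩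
  exact semiUP_of_isBaseChange (R := R) (R' := R') N (TensorProduct.mk R R' N 1)
    (TensorProduct.isBaseChange R N R') _ (fun _ => rfl)

variable {N}

/-- A base change of an invertible module is invertible. -/
theorem invertible_of_semiUP {N' : Type u} [AddCommGroup N'] [Module R' N'] {b : N →ₛₗ[ρ] N'}
    (h : SemiUP ρ b) [Module.Invertible R N] : Module.Invertible R' N' := by
  letI : Algebra R R' := ρ.toAlgebra
  have h' : SemiUP ρ
      ({ toFun := fun n => (1 : R') ⊗ₜ[R] n
         map_add' := fun m n => TensorProduct.tmul_add _ _ _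
         map_smul' := fun r n => by
           change (1 : R') ⊗ₜ[R] (r • n) = ρ r • ((1 : R') ⊗ₜ[R] n)
           rw [TensorProduct.smul_tmul', smul_eq_mul, mul_one, ← TensorProduct.smul_tmul]
           congr 1
           change ρ r * 1 = ρ r
           rw [mul_one] } : N →ₛₗ[ρ] R' ⊗[R] N) :=
    semiUP_of_isBaseChange (R := R) (R' := R') N (TensorProduct.mk R R' N 1)
      (TensorProduct.isBaseChange R N R') _ (fun _ => rfl)
  obtain ⟨e, -⟩ := h'.exists_equiv h
  exact Module.Invertible.congr e

end Exist

end Fermat.Agent.S25.H265
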