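import Fermat.Agent.S25.H265.GDCDeg
import Fermat.Agent.S25.H265.GDCExist

/-!
# S25 / helper265, block GDC, part 6: rigidifiability

`CurveGD.Rigidifiable e` is invariant under isomorphism, stable under base change, and lifts
along quotients by ideals of nilpotent elements.
-/

set_option autoImplicit false
set_option linter.style.haveILetI false

universe u

open scoped TensorProduct

namespace Fermat.Agent.S25.H265

open Fermat.Agent.S25 GlueDatum

section Nilpotent

variable {A : Type u} [CommRing A] (I : Ideal A)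

/-- The kernel of a base change along `A → A ⧸ I` is contained in `I • ⊤`. -/
theorem mem_smul_top_of_semiUP_mk {P P₀ : Type u} [AddCommGroup P] [Module A P]
    [AddCommGroup P₀] [Module (A ⧸ I) P₀] {q : P →ₛₗ[Ideal.Quotient.mk I] P₀}
    (h : SemiUP (Ideal.Quotient.mk I) q) {y : P} (hy : q y = 0) :
    y ∈ (I • ⊤ : Submodule A P) := by
  let π : P →ₛₗ[Ideal.Quotient.mk I] (P ⧸ (I • ⊤ : Submodule A P)) :=
    { toFun := fun x => Submodule.Quotient.mk x
      map_add' := fun x y => rfl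
      map_smul' := fun a x => rfl }
  obtain ⟨g, hg, -⟩ := h _ π
  have : π y = 0 := by rw [← hg, hy, map_zero]
  exact (Submodule.Quotient.mk_eq_zero _).mp this

/-- Nakayama for invertible modules and nilpotent ideals: if the reduction of the invertible
module `P` modulo an ideal `I` of nilpotent elements is free of rank one, then `P` is free of
rank one; more precisely any lift of a generator is a basis. -/
theorem exists_equiv_of_semiUP_mk (hI : ∀ a ∈ I, IsNilpotent a) {P : Type u} [AddCommGroup P]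
    [Module A P] [Module.Invertible A P] {q : P →ₛₗ[Ideal.Quotient.mk I] (A ⧸ I)}
    (h : SemiUP (Ideal.Quotient.mk I) q) : Nonempty (P ≃ₗ[A] A) := by
  -- `q` is surjective
  have hq1 : ∃ p, q p = 1 := by
    by_contra hne
    push Not at hne
    -- the image of `q` generates an ideal `J` of `A ⧸ I`; compare `mk J` and `0` on the image
    let J : Ideal (A ⧸ I) := Submodule.span (A ⧸ I) (Set.range q)
    have h1 : (Submodule.mkQ J : (A ⧸ I) →ₗ[A ⧸ I] (A ⧸ I) ⧸ J) = 0 := by
      apply h.hom_ext (RingHom.id (A ⧸ I))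
      intro n
      simp only [LinearMap.zero_apply]
      exact (Submodule.Quotient.mk_eq_zero _).mpr (Submodule.subset_span ⟨n, rfl⟩)
    have h2 : (1 : A ⧸ I) ∈ J := by
      have := LinearMap.congr_fun h1 1
      exact (Submodule.Quotient.mk_eq_zero _).mp this
    -- so `1 = Σ cᵢ q(pᵢ) = q (Σ c̃ᵢ pᵢ)`
    have h3 : ∀ z ∈ J, ∃ p, q p = z := by
      intro z hz
      induction hz using Submodule.span_induction with
      | mem x hx => exact hx
      | zero => exact ⟨0, map_zero _⟩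
      | add x y _ _ hx hy =>
        obtain ⟨p, rfl⟩ := hx
        obtain ⟨p', rfl⟩ := hy
        exact ⟨p + p', map_add _ _ _⟩
      | smul c x _ hx =>
        obtain ⟨p, rfl⟩ := hx
        obtain ⟨a, rfl⟩ := Ideal.Quotient.mk_surjective c
        exact ⟨a • p, LinearMap.map_smulₛₗ q a p⟩
    obtain ⟨p, hp⟩ := h3 1 h2
    exact hne p hp
  obtain ⟨p, hp⟩ := hq1
  let f : A →ₗ[A] P := LinearMap.toSpanSingleton A P p
  have hsurj : Function.Surjective f := by
    rw [← LinearMap.range_eq_top]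
    apply top_le_iff.mp
    refine Submodule.le_of_le_smul_of_le_jacobson_bot (I := I) (Module.Finite.fg_top) ?_ ?_
    · intro a ha
      exact Ideal.radical_le_jacobson (hI a ha)
    · intro x _
      obtain ⟨a, ha⟩ := Ideal.Quotient.mk_surjective (q x)
      have hker : q (x - a • p) = 0 := by
        rw [map_sub, LinearMap.map_smulₛₗ, hp, ha, smul_eq_mul, mul_one, sub_self]
      have hmem := mem_smul_top_of_semiUP_mk I h hker
      have : x = a • p + (x - a • p) := by abel
      rw [this]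
      exact Submodule.add_mem_sup ⟨a, by simp [f, LinearMap.toSpanSingleton_apply]⟩ hmem
  have hbij := Module.Invertible.bijective_of_surjective hsurj
  exact ⟨(LinearEquiv.ofBijective f hbij).symm⟩

end Nilpotent

section Rig

variable {k : Type u} [Field k] {B₀ B₁ B₀₁ : Type u} [CommRing B₀] [CommRing B₁] [CommRing B₀₁]
  [Algebra k B₀] [Algebra k B₁] [Algebra k B₀₁] [Algebra B₀ B₀₁] [Algebra B₁ B₀₁]
  [IsScalarTower k B₀ B₀₁] [IsScalarTower k B₁ B₀₁]
  {A A' : Type u} [CommRing A] [Algebra k A] [CommRing A'] [Algebra k A']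

theorem epsHom_apply_tmul (e : B₁ →ₐ[k] k) (a : A) (b : B₁) :
    epsHom e A (a ⊗ₜ[k] b) = a * algebraMap k A (e b) := by
  simp [epsHom, Algebra.ofId_apply]

/-- The marked section is compatible with base change. -/
theorem epsHom_tensorMapLeft (e : B₁ →ₐ[k] k) (φ : A →ₐ[k] A') (r : A ⊗[k] B₁) :
    epsHom e A' (tensorMapLeft k φ B₁ r) = φ (epsHom e A r) := by
  induction r using TensorProduct.induction_on with
  | zero => simp
  | tmul a b => simp [tensorMapLeft_apply_tmul, epsHom_apply_tmul]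
  | add x y hx hy => simp [hx, hy]

theorem epsHom_comp_tensorMapLeft (e : B₁ →ₐ[k] k) (φ : A →ₐ[k] A') :
    (φ : A →+* A').comp (epsHom e A).toRingHom =
      (epsHom e A').toRingHom.comp (tensorMapLeft k φ B₁) :=
  RingHom.ext fun r => (epsHom_tensorMapLeft e φ r).symm

/-- `Rigidifiable` in terms of the universal property. -/
theorem rigidifiable_iff (e : B₁ →ₐ[k] k) (G : CurveGD k B₀ B₁ B₀₁ A) :
    G.Rigidifiable e ↔ ∃ b : G.N₁ →ₛₗ[(epsHom e A).toRingHom] A, SemiUP _ b :=
  ⟨fun ⟨b, hb⟩ => ⟨b, semiUP_of_isSemilinearBaseChange _ b hb⟩,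
    fun ⟨b, hb⟩ => ⟨b, isSemilinearBaseChange_of_semiUP _ b hb⟩⟩

/-- `Rigidifiable` is invariant under isomorphism. -/
theorem rigidifiable_of_isIso {e : B₁ →ₐ[k] k} {G G₁ : CurveGD k B₀ B₁ B₀₁ A}
    (i : G.IsIso G₁) (h : G.Rigidifiable e) : G₁.Rigidifiable e := by
  obtain ⟨i⟩ := i
  obtain ⟨b, hb⟩ := (rigidifiable_iff e G).mp h
  exact (rigidifiable_iff e G₁).mpr ⟨_, hb.equiv_comp i.e₁.symm⟩

/-- `Rigidifiable` is stable under base change. -/
theorem rigidifiable_of_isBC {e : B₁ →ₐ[k] k} {φ : A →ₐ[k] A'} {G : CurveGD k B₀ B₁ B₀₁ A}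
    {G' : CurveGD k B₀ B₁ B₀₁ A'} (hbc : CurveGD.IsBC φ G G') (h : G.Rigidifiable e) :
    G'.Rigidifiable e := by
  obtain ⟨m⟩ := hbc
  obtain ⟨b, hb⟩ := (rigidifiable_iff e G).mp h
  haveI : RingHomCompTriple (epsHom e A).toRingHom (φ : A →+* A')
      ((φ : A →+* A').comp (epsHom e A).toRingHom) := ⟨rfl⟩
  haveI : RingHomCompTriple (tensorMapLeft k φ B₁) (epsHom e A').toRingHom
      ((epsHom e A').toRingHom.comp (tensorMapLeft k φ B₁)) := ⟨rfl⟩
  have hcomp : SemiUP ((φ : A →+* A').comp (epsHom e A).toRingHom)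
      ((ringHomSemi (φ : A →+* A')).comp b) := hb.comp (semiUP_ringHom _)
  obtain ⟨b', hb'⟩ := (bcmUp₁ m).exists_lift (epsHom e A').toRingHom
    (fun n => φ (b n)) (fun x y => by rw [b.map_add, map_add])
    (fun r x => by
      rw [LinearMap.map_smulₛₗ, smul_eq_mul, map_mul, smul_eq_mul]
      congr 1
      exact (epsHom_tensorMapLeft e φ r).symm)
  refine (rigidifiable_iff e G').mpr ⟨b', ?_⟩
  refine (bcmUp₁ m).of_comp (τ := (epsHom e A').toRingHom.comp (tensorMapLeft k φ B₁)) ?_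
  exact hcomp.congr (epsHom_comp_tensorMapLeft e φ) (fun n => (hb' n).symm)

/-- `Rigidifiable` lifts along quotients by ideals of nilpotent elements. -/
theorem rigidifiable_of_isBC_quotient {e : B₁ →ₐ[k] k} (I : Ideal A)
    (hI : ∀ a ∈ I, IsNilpotent a) {G : CurveGD k B₀ B₁ B₀₁ A}
    {G₀ : CurveGD k B₀ B₁ B₀₁ (A ⧸ I)}
    (hbc : CurveGD.IsBC (Ideal.Quotient.mkₐ k I) G G₀) (h : G₀.Rigidifiable e) :
    G.Rigidifiable e := by
  obtain ⟨m⟩ := hbc
  obtain ⟨b₀, hb₀⟩ := (rigidifiable_iff e G₀).mp h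
  obtain ⟨P, _, _, c, hc⟩ := exists_semiUP (epsHom e A).toRingHom G.N₁
  haveI : Module.Invertible (A ⊗[k] B₁) G.N₁ := G.invertible₁
  haveI : Module.Invertible A P := invertible_of_semiUP _ hc
  haveI : RingHomCompTriple (tensorMapLeft k (Ideal.Quotient.mkₐ k I) B₁)
      (epsHom e (A ⧸ I)).toRingHom
      ((epsHom e (A ⧸ I)).toRingHom.comp (tensorMapLeft k (Ideal.Quotient.mkₐ k I) B₁)) :=
    ⟨rfl⟩
  haveI : RingHomCompTriple (epsHom e A).toRingHom (Ideal.Quotient.mk I)
      ((Ideal.Quotient.mk I).comp (epsHom e A).toRingHom) := ⟨rfl⟩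
  have hcomp : SemiUP
      ((epsHom e (A ⧸ I)).toRingHom.comp (tensorMapLeft k (Ideal.Quotient.mkₐ k I) B₁))
      (b₀.comp m.b₁) := (bcmUp₁ m).comp hb₀
  have hring : (epsHom e (A ⧸ I)).toRingHom.comp
      (tensorMapLeft k (Ideal.Quotient.mkₐ k I) B₁) =
      (Ideal.Quotient.mk I).comp (epsHom e A).toRingHom :=
    (epsHom_comp_tensorMapLeft e (Ideal.Quotient.mkₐ k I)).symm
  obtain ⟨q, hq⟩ := hc.exists_lift (Ideal.Quotient.mk I) (fun n => b₀ (m.b₁ n))
    (fun x y => by rw [m.b₁.map_add, b₀.map_add])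
    (fun r x => by
      rw [LinearMap.map_smulₛₗ, LinearMap.map_smulₛₗ]
      congr 1
      exact epsHom_tensorMapLeft e (Ideal.Quotient.mkₐ k I) r)
  have hqUP : SemiUP (Ideal.Quotient.mk I) q := by
    refine hc.of_comp (τ := (Ideal.Quotient.mk I).comp (epsHom e A).toRingHom) ?_
    exact hcomp.congr hring (fun n => (hq n).symm)
  obtain ⟨E⟩ := exists_equiv_of_semiUP_mk I hI hqUP
  exact (rigidifiable_iff e G).mpr ⟨_, hc.comp_equiv E⟩

/-- Special case: square-zero ideals. -/
theorem rigidifiable_of_isBC_quotient_sq {e : B₁ →ₐ[k] k} (I : Ideal A) (hI : I ^ 2 = ⊥)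
    {G : CurveGD k B₀ B₁ B₀₁ A} {G₀ : CurveGD k B₀ B₁ B₀₁ (A ⧸ I)}
    (hbc : CurveGD.IsBC (Ideal.Quotient.mkₐ k I) G G₀) (h : G₀.Rigidifiable e) :
    G.Rigidifiable e :=
  rigidifiable_of_isBC_quotient I (fun a ha => ⟨2, by
    have : a ^ 2 ∈ I ^ 2 := Ideal.pow_mem_pow ha 2
    rw [hI] at this
    exact this⟩) hbc h

end Rig

end Fermat.Agent.S25.H265
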