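import Fermat.Agent.S25.DefsDict
import Fermat.Agent.S25.H265.GDCRig

/-!
# S25 / helper265, block GDC, part 7: base changes of gluing data exist

`exists_isBC` : for a morphism of cospans `(ρ₀, ρ₁, ρ₀₁)` every gluing datum has a base change.
`curveGD_exists_isBC`, `algBCExists` : the frozen statement `Stmt.AlgBCExists`.
-/

set_option autoImplicit false
set_option linter.style.haveILetI false

universe u

open scoped TensorProduct

namespace Fermat.Agent.S25.H265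

open Fermat.Agent.S25 GlueDatum

section General

variable {A R₀ R₁ R₀₁ : Type u} [CommRing A] [CommRing R₀] [CommRing R₁]
    [CommRing R₀₁] [Algebra A R₀] [Algebra A R₁] [Algebra A R₀₁] [Algebra R₀ R₀₁]
    [Algebra R₁ R₀₁] [IsScalarTower A R₀ R₀₁] [IsScalarTower A R₁ R₀₁]
    {A' R₀' R₁' R₀₁' : Type u} [CommRing A'] [CommRing R₀'] [CommRing R₁']
    [CommRing R₀₁'] [Algebra A' R₀'] [Algebra A' R₁'] [Algebra A' R₀₁'] [Algebra R₀' R₀₁']
    [Algebra R₁' R₀₁'] [IsScalarTower A' R₀' R₀₁'] [IsScalarTower A' R₁' R₀₁']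

/-- The restriction map `r₀` of a gluing datum, as a semilinear map. -/
def r₀Semi (G : GlueDatum A R₀ R₁ R₀₁) : G.N₀ →ₛₗ[algebraMap R₀ R₀₁] G.N₀₁ where
  toFun := G.r₀
  map_add' := G.r₀.map_add
  map_smul' := r₀_smul G

/-- The restriction map `r₁` of a gluing datum, as a semilinear map. -/
def r₁Semi (G : GlueDatum A R₀ R₁ R₀₁) : G.N₁ →ₛₗ[algebraMap R₁ R₀₁] G.N₀₁ where
  toFun := G.r₁
  map_add' := G.r₁.map_add
  map_smul' := r₁_smul G

theorem semiUP_r₀ (G : GlueDatum A R₀ R₁ R₀₁) : SemiUP (algebraMap R₀ R₀₁) (r₀Semi G) :=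
  semiUP_of_isBaseChange G.N₀ G.r₀ G.isBaseChange₀ _ (fun _ => rfl)

theorem semiUP_r₁ (G : GlueDatum A R₀ R₁ R₀₁) : SemiUP (algebraMap R₁ R₀₁) (r₁Semi G) :=
  semiUP_of_isBaseChange G.N₁ G.r₁ G.isBaseChange₁ _ (fun _ => rfl)

/-- Base changes of gluing data along a morphism of cospans exist. -/
theorem exists_isBC (ρ₀ : R₀ →+* R₀') (ρ₁ : R₁ →+* R₁') (ρ₀₁ : R₀₁ →+* R₀₁')
    (hcosp₀ : ∀ r, ρ₀₁ (algebraMap R₀ R₀₁ r) = algebraMap R₀' R₀₁' (ρ₀ r))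
    (hcosp₁ : ∀ r, ρ₀₁ (algebraMap R₁ R₀₁ r) = algebraMap R₁' R₀₁' (ρ₁ r))
    (G : GlueDatum A R₀ R₁ R₀₁) :
    ∃ G' : GlueDatum A' R₀' R₁' R₀₁', GlueDatum.IsBC ρ₀ ρ₁ ρ₀₁ G G' := by
  obtain ⟨N₀', _, _, b₀, hb₀⟩ := exists_semiUP ρ₀ G.N₀
  obtain ⟨N₁', _, _, b₁, hb₁⟩ := exists_semiUP ρ₁ G.N₁
  obtain ⟨N₀₁', _, _, b₀₁, hb₀₁⟩ := exists_semiUP ρ₀₁ G.N₀₁
  letI mL : Module R₀' N₀₁' := Module.compHom N₀₁' (algebraMap R₀' R₀₁')
  letI mR : Module R₁' N₀₁' := Module.compHom N₀₁' (algebraMap R₁' R₀₁')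
  haveI tL : IsScalarTower R₀' R₀₁' N₀₁' := IsScalarTower.of_algebraMap_smul fun _ _ => rfl
  haveI tR : IsScalarTower R₁' R₀₁' N₀₁' := IsScalarTower.of_algebraMap_smul fun _ _ => rfl
  letI a₀ : Module A' N₀' := Module.compHom N₀' (algebraMap A' R₀')
  letI a₁ : Module A' N₁' := Module.compHom N₁' (algebraMap A' R₁')
  letI a₀₁ : Module A' N₀₁' := Module.compHom N₀₁' (algebraMap A' R₀₁')
  haveI t₀ : IsScalarTower A' R₀' N₀' := IsScalarTower.of_algebraMap_smul fun _ _ => rfl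
  haveI t₁ : IsScalarTower A' R₁' N₁' := IsScalarTower.of_algebraMap_smul fun _ _ => rfl
  haveI t₀₁ : IsScalarTower A' R₀₁' N₀₁' := IsScalarTower.of_algebraMap_smul fun _ _ => rfl
  haveI : RingHomCompTriple (algebraMap R₀ R₀₁) ρ₀₁ (ρ₀₁.comp (algebraMap R₀ R₀₁)) := ⟨rfl⟩
  haveI : RingHomCompTriple (algebraMap R₁ R₀₁) ρ₀₁ (ρ₀₁.comp (algebraMap R₁ R₀₁)) := ⟨rfl⟩
  haveI : RingHomCompTriple ρ₀ (algebraMap R₀' R₀₁') ((algebraMap R₀' R₀₁').comp ρ₀) := ⟨rfl⟩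
  haveI : RingHomCompTriple ρ₁ (algebraMap R₁' R₀₁') ((algebraMap R₁' R₀₁').comp ρ₁) := ⟨rfl⟩
  -- the restriction maps of the base change
  obtain ⟨s₀, hs₀⟩ := hb₀.exists_lift (algebraMap R₀' R₀₁') (fun n => b₀₁ (G.r₀ n))
    (fun x y => by rw [G.r₀.map_add, b₀₁.map_add])
    (fun r x => by rw [r₀_smul, LinearMap.map_smulₛₗ, hcosp₀])
  obtain ⟨s₁, hs₁⟩ := hb₁.exists_lift (algebraMap R₁' R₀₁') (fun n => b₀₁ (G.r₁ n))
    (fun x y => by rw [G.r₁.map_add, b₀₁.map_add])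
    (fun r x => by rw [r₁_smul, LinearMap.map_smulₛₗ, hcosp₁])
  have hs₀UP : SemiUP (algebraMap R₀' R₀₁') s₀ := by
    refine hb₀.of_comp (τ := (algebraMap R₀' R₀₁').comp ρ₀) ?_
    exact ((semiUP_r₀ G).comp hb₀₁).congr (RingHom.ext hcosp₀) (fun n => (hs₀ n).symm)
  have hs₁UP : SemiUP (algebraMap R₁' R₀₁') s₁ := by
    refine hb₁.of_comp (τ := (algebraMap R₁' R₀₁').comp ρ₁) ?_
    exact ((semiUP_r₁ G).comp hb₀₁).congr (RingHom.ext hcosp₁) (fun n => (hs₁ n).symm)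
  let r₀' : N₀' →ₗ[R₀'] N₀₁' :=
    { toFun := s₀
      map_add' := s₀.map_add
      map_smul' := fun r x => LinearMap.map_smulₛₗ s₀ r x }
  let r₁' : N₁' →ₗ[R₁'] N₀₁' :=
    { toFun := s₁
      map_add' := s₁.map_add
      map_smul' := fun r x => LinearMap.map_smulₛₗ s₁ r x }
  haveI : Module.Invertible R₀ G.N₀ := G.invertible₀
  haveI : Module.Invertible R₁ G.N₁ := G.invertible₁
  let G' : GlueDatum A' R₀' R₁' R₀₁' :=
    { N₀ := N₀'
      N₁ := N₁'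
      N₀₁ := N₀₁'
      moduleL := mL
      moduleR := mR
      towerL := tL
      towerR := tR
      baseModule₀ := a₀
      baseModule₁ := a₁
      baseModule₀₁ := a₀₁
      baseTower₀ := t₀
      baseTower₁ := t₁
      baseTower₀₁ := t₀₁
      r₀ := r₀'
      r₁ := r₁'
      isBaseChange₀ := isBaseChange_of_semiUP N₀' r₀' s₀ (fun _ => rfl) hs₀UP
      isBaseChange₁ := isBaseChange_of_semiUP N₁' r₁' s₁ (fun _ => rfl) hs₁UP
      invertible₀ := invertible_of_semiUP ρ₀ hb₀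
      invertible₁ := invertible_of_semiUP ρ₁ hb₁ }
  refine ⟨G', ⟨{ b₀ := b₀, b₁ := b₁, b₀₁ := b₀₁, comm₀ := fun s => (hs₀ s).symm,
                 comm₁ := fun s => (hs₁ s).symm,
                 isBaseChange₀ := isSemilinearBaseChange_of_semiUP _ _ hb₀,
                 isBaseChange₁ := isSemilinearBaseChange_of_semiUP _ _ hb₁,
                 isBaseChange₀₁ := isSemilinearBaseChange_of_semiUP _ _ hb₀₁ }⟩⟩

end General

section Curve

variable {k : Type u} [Field k] {B₀ B₁ B₀₁ : Type u} [CommRing B₀] [CommRing B₁] [CommRing B₀₁]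
  [Algebra k B₀] [Algebra k B₁] [Algebra k B₀₁] [Algebra B₀ B₀₁] [Algebra B₁ B₀₁]
  [IsScalarTower k B₀ B₀₁] [IsScalarTower k B₁ B₀₁]
  {A A' : Type u} [CommRing A] [Algebra k A] [CommRing A'] [Algebra k A']

/-- Base changes of curve gluing data exist. -/
theorem curveGD_exists_isBC (φ : A →ₐ[k] A') (G : CurveGD k B₀ B₁ B₀₁ A) :
    ∃ G' : CurveGD k B₀ B₁ B₀₁ A', CurveGD.IsBC φ G G' :=
  exists_isBC _ _ _ (tensorMapLeft_algebraMap φ B₀ B₀₁) (tensorMapLeft_algebraMap φ B₁ B₀₁) G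

end Curve

section Stmt

open CategoryTheory AlgebraicGeometry NeronModelInfra

variable {k : Type u} [Field k] {C : Scheme.{u}} {c : C ⟶ Spec (CommRingCat.of k)}
  {ε : SchemeHomOver (𝟙 (Spec (CommRingCat.of k))) c}

/-- **ALG-BC-EXISTS** (frozen statement of `DefsDict`). -/
theorem algBCExists (Ch : ChartOf c ε) : Stmt.AlgBCExists Ch :=
  fun _ _ _ _ _ _ φ G => curveGD_exists_isBC φ G

end Stmt

end Fermat.Agent.S25.H265
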