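import Fermat.Agent.S25.H265.GDCIso

/-!
# S25 / helper265, block GDC, part 3: base change calculus for `CurveGD`

`CurveGD.IsBC φ` (base change of gluing data on `C_A` along `φ : A → A'`): identities,
composites, uniqueness up to isomorphism, invariance under isomorphism, cancellation.
-/

set_option autoImplicit false
set_option linter.style.haveILetI false

universe u

open scoped TensorProduct

namespace Fermat.Agent.S25.H265

open Fermat.Agent.S25 GlueDatum

section Maps

variable {k : Type u} [Field k]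

theorem tensorMapLeft_apply_tmul {A A' : Type u} [CommRing A] [Algebra k A] [CommRing A']
    [Algebra k A'] (φ : A →ₐ[k] A') (B : Type u) [CommRing B] [Algebra k B] (a : A) (b : B) :
    tensorMapLeft k φ B (a ⊗ₜ[k] b) = φ a ⊗ₜ[k] b := by
  simp [tensorMapLeft]

theorem tensorMapLeft_id (A : Type u) [CommRing A] [Algebra k A] (B : Type u) [CommRing B]
    [Algebra k B] : tensorMapLeft k (AlgHom.id k A) B = RingHom.id (A ⊗[k] B) := by
  refine RingHom.ext fun x => ?_
  induction x using TensorProduct.induction_on with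
  | zero => simp
  | tmul a b => simp [tensorMapLeft_apply_tmul]
  | add x y hx hy => simp [hx, hy]

theorem tensorMapLeft_comp {A A' A'' : Type u} [CommRing A] [Algebra k A] [CommRing A']
    [Algebra k A'] [CommRing A''] [Algebra k A''] (φ : A →ₐ[k] A') (ψ : A' →ₐ[k] A'')
    (B : Type u) [CommRing B] [Algebra k B] :
    tensorMapLeft k (ψ.comp φ) B = (tensorMapLeft k ψ B).comp (tensorMapLeft k φ B) := by
  refine RingHom.ext fun x => ?_
  induction x using TensorProduct.induction_on with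
  | zero => simp
  | tmul a b => simp [tensorMapLeft_apply_tmul]
  | add x y hx hy => simp [hx, hy]

theorem algebraMap_tensor_apply_tmul (A B B' : Type u) [CommRing A] [Algebra k A] [CommRing B]
    [CommRing B'] [Algebra k B] [Algebra k B'] [Algebra B B'] [IsScalarTower k B B'] (a : A)
    (b : B) : algebraMap (A ⊗[k] B) (A ⊗[k] B') (a ⊗ₜ[k] b) = a ⊗ₜ[k] algebraMap B B' b := by
  change tensorMapRight k A B B' (a ⊗ₜ[k] b) = _
  simp [tensorMapRight]

/-- `tensorMapLeft φ` is a morphism of cospans. -/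
theorem tensorMapLeft_algebraMap {A A' : Type u} [CommRing A] [Algebra k A] [CommRing A']
    [Algebra k A'] (φ : A →ₐ[k] A') (B B' : Type u) [CommRing B] [CommRing B'] [Algebra k B]
    [Algebra k B'] [Algebra B B'] [IsScalarTower k B B'] (r : A ⊗[k] B) :
    tensorMapLeft k φ B' (algebraMap (A ⊗[k] B) (A ⊗[k] B') r) =
      algebraMap (A' ⊗[k] B) (A' ⊗[k] B') (tensorMapLeft k φ B r) := by
  induction r using TensorProduct.induction_on with
  | zero => simp
  | tmul a b => simp [tensorMapLeft_apply_tmul, algebraMap_tensor_apply_tmul]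
  | add x y hx hy => simp [hx, hy]

end Maps

section CurveBC

variable {k : Type u} [Field k] {B₀ B₁ B₀₁ : Type u} [CommRing B₀] [CommRing B₁] [CommRing B₀₁]
  [Algebra k B₀] [Algebra k B₁] [Algebra k B₀₁] [Algebra B₀ B₀₁] [Algebra B₁ B₀₁]
  [IsScalarTower k B₀ B₀₁] [IsScalarTower k B₁ B₀₁]
  {A A' A'' : Type u} [CommRing A] [Algebra k A] [CommRing A'] [Algebra k A']
  [CommRing A''] [Algebra k A'']

/-- Every gluing datum is its own base change along the identity. -/
theorem curveGD_isBC_id (G : CurveGD k B₀ B₁ B₀₁ A) : CurveGD.IsBC (AlgHom.id k A) G G :=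
  IsBC.congr (tensorMapLeft_id A B₀).symm (tensorMapLeft_id A B₁).symm
    (tensorMapLeft_id A B₀₁).symm (isBC_id G)

/-- Composition of base changes of curve gluing data. -/
theorem curveGD_isBC_comp {φ : A →ₐ[k] A'} {ψ : A' →ₐ[k] A''} {G : CurveGD k B₀ B₁ B₀₁ A}
    {G' : CurveGD k B₀ B₁ B₀₁ A'} {G'' : CurveGD k B₀ B₁ B₀₁ A''}
    (h : CurveGD.IsBC φ G G') (h' : CurveGD.IsBC ψ G' G'') :
    CurveGD.IsBC (ψ.comp φ) G G'' :=
  IsBC.congr (tensorMapLeft_comp φ ψ B₀).symm (tensorMapLeft_comp φ ψ B₁).symm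
    (tensorMapLeft_comp φ ψ B₀₁).symm (IsBC.comp h h')

/-- Base change of curve gluing data is unique up to isomorphism. -/
theorem curveGD_isIso_of_isBC {φ : A →ₐ[k] A'} {G : CurveGD k B₀ B₁ B₀₁ A}
    {G' G'' : CurveGD k B₀ B₁ B₀₁ A'} (h : CurveGD.IsBC φ G G') (h' : CurveGD.IsBC φ G G'') :
    G'.IsIso G'' :=
  isIso_of_isBC h h'

/-- `CurveGD.IsBC` is invariant under isomorphism of the target. -/
theorem curveGD_isBC_of_isIso_right {φ : A →ₐ[k] A'} {G : CurveGD k B₀ B₁ B₀₁ A}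
    {G' G'' : CurveGD k B₀ B₁ B₀₁ A'} (h : CurveGD.IsBC φ G G') (e : G'.IsIso G'') :
    CurveGD.IsBC φ G G'' :=
  IsBC.of_isIso_right h e

/-- `CurveGD.IsBC` is invariant under isomorphism of the source. -/
theorem curveGD_isBC_of_isIso_left {φ : A →ₐ[k] A'} {G G₁ : CurveGD k B₀ B₁ B₀₁ A}
    {G' : CurveGD k B₀ B₁ B₀₁ A'} (e : G.IsIso G₁) (h : CurveGD.IsBC φ G G') :
    CurveGD.IsBC φ G₁ G' :=
  IsBC.of_isIso_left e h

/-- Cancellation for base change of curve gluing data. -/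
theorem curveGD_isBC_of_comp {φ : A →ₐ[k] A'} {ψ : A' →ₐ[k] A''} {G : CurveGD k B₀ B₁ B₀₁ A}
    {G' : CurveGD k B₀ B₁ B₀₁ A'} {G'' : CurveGD k B₀ B₁ B₀₁ A''}
    (h : CurveGD.IsBC φ G G') (hc : CurveGD.IsBC (ψ.comp φ) G G'') :
    CurveGD.IsBC ψ G' G'' :=
  IsBC.of_comp (tensorMapLeft_algebraMap ψ B₀ B₀₁) (tensorMapLeft_algebraMap ψ B₁ B₀₁) h
    (IsBC.congr (tensorMapLeft_comp φ ψ B₀) (tensorMapLeft_comp φ ψ B₁)
      (tensorMapLeft_comp φ ψ B₀₁) hc)

/-- Variant of cancellation with the composite given up to equality. -/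
theorem curveGD_isBC_of_comp_eq {φ : A →ₐ[k] A'} {ψ : A' →ₐ[k] A''} {χ : A →ₐ[k] A''}
    (hχ : χ = ψ.comp φ) {G : CurveGD k B₀ B₁ B₀₁ A}
    {G' : CurveGD k B₀ B₁ B₀₁ A'} {G'' : CurveGD k B₀ B₁ B₀₁ A''}
    (h : CurveGD.IsBC φ G G') (hc : CurveGD.IsBC χ G G'') :
    CurveGD.IsBC ψ G' G'' := by
  subst hχ
  exact curveGD_isBC_of_comp h hc

end CurveBC

end Fermat.Agent.S25.H265
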