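import Fermat.Agent.S25.H265.GDCCurve

/-!
# S25 / helper265, block GDC, part 4: invariance of cohomology, degree and `Deg0`

Isomorphic gluing data have isomorphic `Ȟ⁰`, `Ȟ¹`, hence the same Euler characteristic and
degree.  `CurveGD.Deg0` is invariant under isomorphism, stable under base change, and
descends along nilpotent thickenings of the base.
-/

set_option autoImplicit false
set_option linter.style.haveILetI false

universe u

open scoped TensorProduct

namespace Fermat.Agent.S25.H265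

open Fermat.Agent.S25 GlueDatum

section Coh

variable {A R₀ R₁ R₀₁ : Type u} [CommRing A] [CommRing R₀] [CommRing R₁]
    [CommRing R₀₁] [Algebra A R₀] [Algebra A R₁] [Algebra A R₀₁] [Algebra R₀ R₀₁]
    [Algebra R₁ R₀₁] [IsScalarTower A R₀ R₀₁] [IsScalarTower A R₁ R₀₁]

/-- The `A`-linear equivalence on pairs of sections induced by an isomorphism. -/
def isoPair {G G' : GlueDatum A R₀ R₁ R₀₁} (e : GlueDatum.Iso G G') :
    (G.N₀ × G.N₁) ≃ₗ[A] (G'.N₀ × G'.N₁) :=
  LinearEquiv.prodCongr (e.e₀.restrictScalars A) (e.e₁.restrictScalars A)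

/-- The `A`-linear equivalence on sections over the intersection induced by an isomorphism. -/
def isoInter {G G' : GlueDatum A R₀ R₁ R₀₁} (e : GlueDatum.Iso G G') :
    G.N₀₁ ≃ₗ[A] G'.N₀₁ :=
  e.e₀₁.restrictScalars A

theorem isoInter_cech {G G' : GlueDatum A R₀ R₁ R₀₁} (e : GlueDatum.Iso G G')
    (s : G.N₀ × G.N₁) : isoInter e (G.cech s) = G'.cech (isoPair e s) := by
  obtain ⟨s₀, s₁⟩ := s
  simp only [GlueDatum.cech, isoInter, isoPair, LinearMap.coprod_apply, LinearMap.neg_apply,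
    LinearMap.restrictScalars_apply, LinearEquiv.restrictScalars_apply, map_add, map_neg,
    LinearEquiv.prodCongr_apply]
  rw [e.comm₀, e.comm₁]

/-- Isomorphic gluing data have isomorphic `Ȟ⁰`. -/
def isoH0 {G G' : GlueDatum A R₀ R₁ R₀₁} (e : GlueDatum.Iso G G') : G.H0 ≃ₗ[A] G'.H0 :=
  LinearEquiv.ofSubmodules (isoPair e) G.H0 G'.H0 (by
    ext t
    simp only [Submodule.mem_map, LinearMap.mem_ker]
    constructor
    · rintro ⟨s, hs, rfl⟩
      change G'.cech (isoPair e s) = 0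
      rw [← isoInter_cech, hs, map_zero]
    · intro ht
      refine ⟨(isoPair e).symm t, ?_, by simp⟩
      apply (isoInter e).injective
      rw [isoInter_cech, LinearEquiv.apply_symm_apply, ht, map_zero])

/-- Isomorphic gluing data have isomorphic `Ȟ¹`. -/
def isoH1 {G G' : GlueDatum A R₀ R₁ R₀₁} (e : GlueDatum.Iso G G') : G.H1 ≃ₗ[A] G'.H1 :=
  Submodule.Quotient.equiv _ _ (isoInter e) (by
    ext t
    simp only [Submodule.mem_map, LinearMap.mem_range]
    constructor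
    · rintro ⟨_, ⟨s, rfl⟩, rfl⟩
      exact ⟨isoPair e s, (isoInter_cech e s).symm⟩
    · rintro ⟨s', rfl⟩
      refine ⟨G.cech ((isoPair e).symm s'), ⟨_, rfl⟩, ?_⟩
      exact (isoInter_cech e _).trans (by rw [LinearEquiv.apply_symm_apply]))

end Coh

section Field

variable {K R₀ R₁ R₀₁ : Type u} [Field K] [CommRing R₀] [CommRing R₁]
    [CommRing R₀₁] [Algebra K R₀] [Algebra K R₁] [Algebra K R₀₁] [Algebra R₀ R₀₁]
    [Algebra R₁ R₀₁] [IsScalarTower K R₀ R₀₁] [IsScalarTower K R₁ R₀₁]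

theorem euler_eq_of_isIso {G G' : GlueDatum K R₀ R₁ R₀₁} (h : G.IsIso G') :
    G.euler = G'.euler := by
  obtain ⟨e⟩ := h
  unfold GlueDatum.euler
  rw [(isoH0 e).finrank_eq, (isoH1 e).finrank_eq]

/-- Isomorphic gluing data over a field have the same degree. -/
theorem degree_eq_of_isIso {G G' : GlueDatum K R₀ R₁ R₀₁} (h : G.IsIso G') :
    G.degree = G'.degree := by
  unfold GlueDatum.degree
  rw [euler_eq_of_isIso h]

end Field

section Deg0

variable {k : Type u} [Field k] {B₀ B₁ B₀₁ : Type u} [CommRing B₀] [CommRing B₁] [CommRing B₀₁]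
  [Algebra k B₀] [Algebra k B₁] [Algebra k B₀₁] [Algebra B₀ B₀₁] [Algebra B₁ B₀₁]
  [IsScalarTower k B₀ B₀₁] [IsScalarTower k B₁ B₀₁]
  {A A' : Type u} [CommRing A] [Algebra k A] [CommRing A'] [Algebra k A']

/-- `Deg0` is invariant under isomorphism. -/
theorem deg0_of_isIso {G G₁ : CurveGD k B₀ B₁ B₀₁ A} (e : G.IsIso G₁) (h : G.Deg0) :
    G₁.Deg0 := by
  intro K _ _ φ G' hbc
  exact h K φ G' (curveGD_isBC_of_isIso_left (isIso_symm e) hbc)

/-- `Deg0` is stable under base change. -/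
theorem deg0_of_isBC {φ : A →ₐ[k] A'} {G : CurveGD k B₀ B₁ B₀₁ A}
    {G' : CurveGD k B₀ B₁ B₀₁ A'} (hbc : CurveGD.IsBC φ G G') (h : G.Deg0) : G'.Deg0 := by
  intro K _ _ ψ G'' hbc'
  exact h K (ψ.comp φ) G'' (curveGD_isBC_comp hbc hbc')

/-- `Deg0` descends along a quotient by an ideal of nilpotent elements: if the reduction of
`G` modulo `I` has degree zero on all fibres, so has `G`. -/
theorem deg0_of_isBC_quotient (I : Ideal A) (hI : ∀ a ∈ I, IsNilpotent a)
    {G : CurveGD k B₀ B₁ B₀₁ A} {G₀ : CurveGD k B₀ B₁ B₀₁ (A ⧸ I)}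
    (hbc : CurveGD.IsBC (Ideal.Quotient.mkₐ k I) G G₀) (h : G₀.Deg0) : G.Deg0 := by
  intro K _ _ χ G' hbc'
  have hχ : ∀ a ∈ I, χ a = 0 := fun a ha => by
    obtain ⟨n, hn⟩ := hI a ha
    have : χ a ^ n = 0 := by rw [← map_pow, hn, map_zero]
    exact eq_zero_of_pow_eq_zero this
  let ψ : (A ⧸ I) →ₐ[k] K := Ideal.Quotient.liftₐ I χ hχ
  have hfac : χ = ψ.comp (Ideal.Quotient.mkₐ k I) := by
    ext a
    exact (Ideal.Quotient.liftₐ_apply I χ hχ (Ideal.Quotient.mk I a)).symm ▸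
      (Ideal.Quotient.lift_mk I (χ : A →+* K) hχ).symm
  exact h K ψ G' (curveGD_isBC_of_comp_eq hfac hbc hbc')

/-- Special case: square-zero ideals. -/
theorem deg0_of_isBC_quotient_sq (I : Ideal A) (hI : I ^ 2 = ⊥)
    {G : CurveGD k B₀ B₁ B₀₁ A} {G₀ : CurveGD k B₀ B₁ B₀₁ (A ⧸ I)}
    (hbc : CurveGD.IsBC (Ideal.Quotient.mkₐ k I) G G₀) (h : G₀.Deg0) : G.Deg0 :=
  deg0_of_isBC_quotient I (fun a ha => ⟨2, by
    have : a ^ 2 ∈ I ^ 2 := Ideal.pow_mem_pow ha 2
    rw [hI] at this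
    exact this⟩) hbc h

end Deg0

end Fermat.Agent.S25.H265
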