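/-
S25 / ALGCHARTS, leaf PT-BC (helper265): the point conditions are compatible with base change.

`pointCond_bc` : exact statement of the skeleton (`coord/S25-ALGCHARTS-skeleton.lean`);
`leaf_pointBC` : `H11.Leaf.PointBC k B₀ B₁ B₀₁`.

Built on helper791's base-change machinery (`H791.BCEquivs`, SH3).
Reusable: `semiBC_induction`, `span_singleton_bc`, `genModY_bc`, `p1_baseChange`,
`secq_bc_span` (under `P1` every section of `G'(nE₀ - Σq)` is an `A'`-multiple of the
base change of a generator), `isGen_bc`.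
-/
import Fermat.Agent.S25.H791.ACStage1
import Fermat.Agent.S25.H11.ACLeaves

set_option autoImplicit false
set_option linter.style.haveILetI false
set_option linter.unusedSectionVars false

universe u

open scoped TensorProduct

namespace Fermat.Agent.S25.H265

open Fermat.Agent.S25 Fermat.Agent.S25.H11 Fermat.Agent.S25.H791

section Semi

variable {R R' : Type u} [CommRing R] [CommRing R'] {ρ : R →+* R'}
  {N N' : Type u} [AddCommGroup N] [Module R N] [AddCommGroup N'] [Module R' N']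

/-- Induction principle for a semilinear base change. -/
theorem semiBC_induction {b : N →ₛₗ[ρ] N'} (hb : IsSemilinearBaseChange ρ b)
    (motive : N' → Prop) (zero : motive 0) (base : ∀ n, motive (b n))
    (smul : ∀ (r : R') (n : N'), motive n → motive (r • n))
    (add : ∀ n₁ n₂, motive n₁ → motive n₂ → motive (n₁ + n₂)) (x : N') : motive x := by
  letI : Algebra R R' := ρ.toAlgebra
  letI : Module R N' := Module.compHom N' ρ
  haveI : IsScalarTower R R' N' := ⟨fun r r' n => by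
    change (ρ r * r') • n = ρ r • (r' • n); rw [mul_smul]⟩
  exact IsBaseChange.inductionOn hb x motive zero base smul add

/-- A semilinear map sends `J • ⊤` into `J.map ρ • ⊤`. -/
theorem semi_mem_map_smul_top (b : N →ₛₗ[ρ] N') (J : Ideal R) {v : N}
    (hv : v ∈ J • (⊤ : Submodule R N)) : b v ∈ J.map ρ • (⊤ : Submodule R' N') := by
  refine Submodule.smul_induction_on hv (fun r hr n _ => ?_) (fun a c ha hc => ?_)
  · rw [b.map_smulₛₗ]
    exact Submodule.smul_mem_smul (Ideal.mem_map_of_mem _ hr) Submodule.mem_top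
  · rw [map_add]
    exact Submodule.add_mem _ ha hc

/-- Base change of the identity `span {s} = J • ⊤`. -/
theorem span_singleton_bc {b : N →ₛₗ[ρ] N'} (hb : IsSemilinearBaseChange ρ b) (J : Ideal R)
    (s : N) (h : Submodule.span R {s} = J • (⊤ : Submodule R N)) :
    Submodule.span R' {b s} = J.map ρ • (⊤ : Submodule R' N') := by
  apply le_antisymm
  · rw [Submodule.span_singleton_le_iff_mem]
    refine semi_mem_map_smul_top b J ?_
    rw [← h]
    exact Submodule.mem_span_singleton_self s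
  · have key : ∀ r' ∈ J.map ρ, ∀ n' : N', r' • n' ∈ Submodule.span R' {b s} := by
      intro r' hr'
      induction hr' using Submodule.span_induction with
      | mem r' hr' =>
        obtain ⟨j, hj, rfl⟩ := hr'
        intro n'
        refine semiBC_induction hb (fun n' => ρ j • n' ∈ Submodule.span R' {b s}) ?_ ?_ ?_ ?_ n'
        · rw [smul_zero]; exact Submodule.zero_mem _
        · intro n
          have hmem : j • n ∈ Submodule.span R {s} := by
            rw [h]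
            exact Submodule.smul_mem_smul hj Submodule.mem_top
          obtain ⟨r, hr⟩ := Submodule.mem_span_singleton.mp hmem
          rw [← b.map_smulₛₗ, ← hr, b.map_smulₛₗ]
          exact Submodule.smul_mem _ _ (Submodule.mem_span_singleton_self _)
        · intro r n hn
          rw [smul_comm]
          exact Submodule.smul_mem _ _ hn
        · intro n₁ n₂ h₁ h₂
          rw [smul_add]
          exact Submodule.add_mem _ h₁ h₂
      | zero => intro n'; rw [zero_smul]; exact Submodule.zero_mem _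
      | add a c _ _ ha hc => intro n'; rw [add_smul]; exact Submodule.add_mem _ (ha n') (hc n')
      | smul c a _ ha =>
        intro n'
        rw [smul_eq_mul, mul_comm, mul_smul]
        exact ha (c • n')
    rw [Submodule.smul_le]
    intro r' hr' n' _
    exact key r' hr' n'

end Semi

section Abstract

variable {A : Type u} [CommRing A] (A' : Type u) [CommRing A'] [Algebra A A']
  {M P : Type u} [AddCommGroup M] [Module A M] [AddCommGroup P] [Module A P]

/-- Right exactness, elementwise: if `g` is onto and its kernel is contained in `A • s`,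
then every element of `A' ⊗ M` killed by `A' ⊗ g` is of the form `a' ⊗ s`. -/
theorem exists_tmul_of_baseChange_eq_zero (g : M →ₗ[A] P) (hg : Function.Surjective g) (s : M)
    (hs : ∀ t ∈ LinearMap.ker g, ∃ a : A, t = a • s) (u : A' ⊗[A] M)
    (hu : g.baseChange A' u = 0) : ∃ a' : A', u = a' ⊗ₜ[A] s := by
  have hex : Function.Exact (LinearMap.ker g).subtype g := LinearMap.exact_subtype_ker_map g
  have hex' : Function.Exact ((LinearMap.ker g).subtype.lTensor A') (g.lTensor A') :=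
    lTensor_exact A' hex hg
  have h5 : (g.lTensor A') u = 0 := by
    rw [← hu]
    exact (congrFun (LinearMap.baseChange_eq_ltensor (A := A') g) u).symm
  obtain ⟨w, rfl⟩ := (hex' u).mp h5
  induction w using TensorProduct.induction_on with
  | zero => exact ⟨0, by simp⟩
  | add w₁ w₂ h₁ h₂ =>
    have e₁ : (g.lTensor A') ((LinearMap.ker g).subtype.lTensor A' w₁) = 0 :=
      (hex' _).mpr ⟨w₁, rfl⟩
    have e₂ : (g.lTensor A') ((LinearMap.ker g).subtype.lTensor A' w₂) = 0 :=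
      (hex' _).mpr ⟨w₂, rfl⟩
    have b₁ : g.baseChange A' ((LinearMap.ker g).subtype.lTensor A' w₁) = 0 := by
      rw [← e₁]
      exact congrFun (LinearMap.baseChange_eq_ltensor (A := A') g) _
    have b₂ : g.baseChange A' ((LinearMap.ker g).subtype.lTensor A' w₂) = 0 := by
      rw [← e₂]
      exact congrFun (LinearMap.baseChange_eq_ltensor (A := A') g) _
    obtain ⟨a₁, h₁⟩ := h₁ b₁ e₁
    obtain ⟨a₂, h₂⟩ := h₂ b₂ e₂
    exact ⟨a₁ + a₂, by rw [map_add, h₁, h₂, TensorProduct.add_tmul]⟩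
  | tmul c v =>
    obtain ⟨a, ha⟩ := hs v.1 v.2
    refine ⟨c * algebraMap A A' a, ?_⟩
    rw [LinearMap.lTensor_tmul, Submodule.subtype_apply, ha, TensorProduct.tmul_smul,
      TensorProduct.smul_tmul', Algebra.smul_def, mul_comm]

end Abstract

section Core

variable {k : Type u} [Field k]
  {B₀ B₁ B₀₁ : Type u} [CommRing B₀] [CommRing B₁] [CommRing B₀₁]
  [Algebra k B₀] [Algebra k B₁] [Algebra k B₀₁] [Algebra B₀ B₀₁] [Algebra B₁ B₀₁]
  [IsScalarTower k B₀ B₀₁] [IsScalarTower k B₁ B₀₁]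
  {x : B₀} {y : B₁} {e : B₁ →ₐ[k] k}

section NoAlg

variable {A A' : Type u} [CommRing A] [Algebra k A] [CommRing A'] [Algebra k A']

/-- `tensorMapLeft` fixes `1 ⊗ y`. -/
theorem tensorMapLeft_yElt (ψ : A →ₐ[k] A') (y : B₁) :
    tensorMapLeft k ψ B₁ (yElt k A y) = yElt k A' y := by
  simp [tensorMapLeft, yElt]

/-- `tensorMapLeft` and the structure maps. -/
theorem tensorMapLeft_algebraMap_base (ψ : A →ₐ[k] A') (B : Type u) [CommRing B] [Algebra k B]
    (a : A) :
    tensorMapLeft k ψ B (algebraMap A (A ⊗[k] B) a) = algebraMap A' (A' ⊗[k] B) (ψ a) := by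
  simp [tensorMapLeft, Algebra.TensorProduct.algebraMap_apply]

/-- Base change maps are semilinear over `ψ`. -/
theorem b₀_smul_base (ψ : A →ₐ[k] A') {G : CurveGD k B₀ B₁ B₀₁ A} {G' : CurveGD k B₀ B₁ B₀₁ A'}
    (bc : GlueDatum.BaseChangeMaps (tensorMapLeft k ψ B₀) (tensorMapLeft k ψ B₁)
      (tensorMapLeft k ψ B₀₁) G G') (a : A) (n : G.N₀) : bc.b₀ (a • n) = ψ a • bc.b₀ n := by
  rw [← algebraMap_smul (A ⊗[k] B₀) a n, bc.b₀.map_smulₛₗ, tensorMapLeft_algebraMap_base,
    algebraMap_smul]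

theorem b₁_smul_base (ψ : A →ₐ[k] A') {G : CurveGD k B₀ B₁ B₀₁ A} {G' : CurveGD k B₀ B₁ B₀₁ A'}
    (bc : GlueDatum.BaseChangeMaps (tensorMapLeft k ψ B₀) (tensorMapLeft k ψ B₁)
      (tensorMapLeft k ψ B₀₁) G G') (a : A) (n : G.N₁) : bc.b₁ (a • n) = ψ a • bc.b₁ n := by
  rw [← algebraMap_smul (A ⊗[k] B₁) a n, bc.b₁.map_smulₛₗ, tensorMapLeft_algebraMap_base,
    algebraMap_smul]

/-- `GenModY` is stable under base change. -/
theorem genModY_bc (ψ : A →ₐ[k] A') {G : CurveGD k B₀ B₁ B₀₁ A} {G' : CurveGD k B₀ B₁ B₀₁ A'}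
    (bc : GlueDatum.BaseChangeMaps (tensorMapLeft k ψ B₀) (tensorMapLeft k ψ B₁)
      (tensorMapLeft k ψ B₀₁) G G') (y : B₁) {b : G.N₁} (h : GenModY y G b) :
    GenModY y G' (bc.b₁ b) := by
  have hmap : (Ideal.span {yElt k A y}).map (tensorMapLeft k ψ B₁) =
      Ideal.span {yElt k A' y} := by
    rw [Ideal.map_span, Set.image_singleton, tensorMapLeft_yElt]
  intro c'
  refine semiBC_induction bc.isBaseChange₁
    (fun c' => ∃ r : A' ⊗[k] B₁, c' - r • bc.b₁ b ∈
      (Ideal.span {yElt k A' y} • ⊤ : Submodule (A' ⊗[k] B₁) G'.N₁)) ?_ ?_ ?_ ?_ c'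
  · exact ⟨0, by rw [zero_smul, sub_zero]; exact Submodule.zero_mem _⟩
  · intro c
    obtain ⟨r, hr⟩ := h c
    refine ⟨tensorMapLeft k ψ B₁ r, ?_⟩
    have := semi_mem_map_smul_top bc.b₁ _ hr
    rwa [hmap, map_sub, bc.b₁.map_smulₛₗ] at this
  · rintro r₂ n ⟨r, hr⟩
    refine ⟨r₂ * r, ?_⟩
    rw [mul_smul, ← smul_sub]
    exact Submodule.smul_mem _ _ hr
  · rintro n₁ n₂ ⟨r₁, h₁⟩ ⟨r₂, h₂⟩
    refine ⟨r₁ + r₂, ?_⟩
    rw [add_smul, add_sub_add_comm]
    exact Submodule.add_mem _ h₁ h₂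

end NoAlg

section WithAlg

variable {A A' : Type u} [CommRing A] [Algebra k A] [CommRing A'] [Algebra k A'] [Algebra A A']
  [IsScalarTower k A A']

/-- `P1` is stable under base change. -/
theorem p1_baseChange (hC : IsCurveChart k B₀ B₁ B₀₁ x y e) (n : ℕ) {m : ℕ}
    (q : Fin m → (B₀ →ₐ[k] k)) (ψ : A →ₐ[k] A') (hψ : ∀ a, ψ a = algebraMap A A' a)
    {G : CurveGD k B₀ B₁ B₀₁ A} {G' : CurveGD k B₀ B₁ B₀₁ A'} (h : CurveGD.IsBC ψ G G')
    (h1 : P1 x n q G) : P1 x n q G' := by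
  have h0 : P0 x n G := h1.1
  rw [p1_iff_annihilator_map hC n q ψ hψ h h0]
  have htop : evRange x n q G = ⊤ := (p1_iff.mp h1).2
  have hsub : Subsingleton (G.N₀ ⧸ evRange x n q G) :=
    Submodule.Quotient.subsingleton_iff.mpr htop
  have hann : Module.annihilator A (G.N₀ ⧸ evRange x n q G) = ⊤ := by
    rw [Ideal.eq_top_iff_one, Module.mem_annihilator]
    intro z
    exact Subsingleton.elim _ _
  rw [hann, Ideal.map_top]

/-- Under `P1` for `G`, with `secq G ⊆ A • s`: every section of `G'(nE₀ - Σq)` is an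
`A'`-multiple of the base change of `s`. -/
theorem secq_bc_span (hC : IsCurveChart k B₀ B₁ B₀₁ x y e) (n : ℕ) {m : ℕ}
    (q : Fin m → (B₀ →ₐ[k] k)) (ψ : A →ₐ[k] A') (hψ : ∀ a, ψ a = algebraMap A A' a)
    {G : CurveGD k B₀ B₁ B₀₁ A} {G' : CurveGD k B₀ B₁ B₀₁ A'}
    (bc : GlueDatum.BaseChangeMaps (tensorMapLeft k ψ B₀) (tensorMapLeft k ψ B₁)
      (tensorMapLeft k ψ B₀₁) G G') (h1 : P1 x n q G) (s : G.N₀ × G.N₁)
    (hsmem : s ∈ sec x n G) (hspan : ∀ t ∈ secq x n q G, ∃ a : A, t = a • s)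
    {t' : G'.N₀ × G'.N₁} (ht' : t' ∈ secq x n q G') :
    ∃ a' : A', t' = a' • ((bc.b₀ s.1, bc.b₁ s.2) : G'.N₀ × G'.N₁) := by
  obtain ⟨E⟩ := exists_bcEquivs ψ hψ bc
  have h0 : P0 x n G := h1.1
  obtain ⟨ht'sec, ht'van⟩ := mem_secq.mp ht'
  -- `t'` comes from `u ∈ A' ⊗ sec G`
  obtain ⟨u, hu⟩ := E.mem_range_of_mem_sec hC n h0 ht'sec
  -- the evaluation map
  set V : Submodule A G.N₀ := (vanq q G).restrictScalars A with hV
  set ev : sec x n G →ₗ[A] (G.N₀ ⧸ V) :=
    V.mkQ ∘ₗ (LinearMap.fst A G.N₀ G.N₁) ∘ₗ (sec x n G).subtype with hev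
  have hevsurj : Function.Surjective ev := by
    intro z
    obtain ⟨a, rfl⟩ := Submodule.Quotient.mk_surjective _ z
    obtain ⟨p, hp, hv⟩ := h1.2 a
    refine ⟨⟨p, hp⟩, ?_⟩
    symm
    exact (Submodule.Quotient.eq V).mpr hv
  -- `u` is killed by `A' ⊗ ev`
  have hukill : (ev.baseChange A') u = 0 := by
    have h3 : (LinearMap.fst A G.N₀ G.N₁).baseChange A' (E.prod.symm t') = E.E₀.symm t'.1 := by
      apply E.E₀.injective
      rw [← E.prod_fst, LinearEquiv.apply_symm_apply, LinearEquiv.apply_symm_apply]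
    have h4 := E.mem_range_of_mem_vanq q ht'van
    rw [← ker_mkQ_baseChange_eq, LinearMap.mem_ker, ← h3, ← hu] at h4
    rw [hev, LinearMap.baseChange_comp, LinearMap.baseChange_comp]
    exact h4
  -- right exactness
  have hs_sec : s ∈ sec x n G := hsmem
  have hker : ∀ t ∈ LinearMap.ker ev, ∃ a : A, t = a • (⟨s, hs_sec⟩ : sec x n G) := by
    intro v hv
    have hvq : (v : G.N₀ × G.N₁) ∈ secq x n q G := by
      refine mem_secq.mpr ⟨v.2, ?_⟩
      have hv0 : ev v = 0 := hv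
      have : V.mkQ (v : G.N₀ × G.N₁).1 = 0 := hv0
      rwa [Submodule.mkQ_apply, Submodule.Quotient.mk_eq_zero] at this
    obtain ⟨a, ha⟩ := hspan _ hvq
    exact ⟨a, Subtype.ext ha⟩
  obtain ⟨a', ha'⟩ := exists_tmul_of_baseChange_eq_zero A' ev hevsurj ⟨s, hs_sec⟩ hker u hukill
  refine ⟨a', ?_⟩
  have h6 : E.prod.symm t' = a' ⊗ₜ[A] s := by
    rw [← hu, ha', LinearMap.baseChange_tmul]
    rfl
  have h7 : t' = E.prod (a' ⊗ₜ[A] s) := by
    rw [← h6, LinearEquiv.apply_symm_apply]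
  rw [h7, E.prod_tmul, Prod.smul_mk]

/-- `IsGen` is stable under base change (under `P1`). -/
theorem isGen_bc (hC : IsCurveChart k B₀ B₁ B₀₁ x y e) (n : ℕ) {m : ℕ}
    (q : Fin m → (B₀ →ₐ[k] k)) (ψ : A →ₐ[k] A') (hψ : ∀ a, ψ a = algebraMap A A' a)
    {G : CurveGD k B₀ B₁ B₀₁ A} {G' : CurveGD k B₀ B₁ B₀₁ A'}
    (bc : GlueDatum.BaseChangeMaps (tensorMapLeft k ψ B₀) (tensorMapLeft k ψ B₁)
      (tensorMapLeft k ψ B₀₁) G G') (h1 : P1 x n q G) {s : G.N₀ × G.N₁}
    (hs : IsGen x y n q G s) :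
    IsGen x y n q G' ((bc.b₀ s.1, bc.b₁ s.2) : G'.N₀ × G'.N₁) where
  mem := mem_secq.mpr ⟨BCEquivs.bc_mem_sec ψ bc x n (mem_secq.mp hs.mem).1,
    BCEquivs.bc_mem_vanq ψ bc q (mem_secq.mp hs.mem).2⟩
  span := fun _ ht' => secq_bc_span hC n q ψ hψ bc h1 s (mem_secq.mp hs.mem).1 hs.span ht'
  gen := genModY_bc ψ bc y hs.gen

/-- PT-BC with an `Algebra A A'` structure inducing `ψ`. -/
theorem pointCond_bc_aux (hC : IsCurveChart k B₀ B₁ B₀₁ x y e) (i : ChartIndex k B₀)
    {G : CurveGD k B₀ B₁ B₀₁ A} {G' : CurveGD k B₀ B₁ B₀₁ A'}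
    (ψ : A →ₐ[k] A') (hψ : ∀ a, ψ a = algebraMap A A' a) (hbc : CurveGD.IsBC ψ G G')
    {φ₀ : H491.Rβ k i.β →ₐ[k] A} (h : PointCond x y i G φ₀) :
    PointCond x y i G' (ψ.comp φ₀) := by
  obtain ⟨s, hs, hspan⟩ := h.sect
  have hbc' := hbc
  obtain ⟨bc⟩ := hbc
  refine ⟨p1_baseChange hC i.n i.q ψ hψ hbc' h.p1,
    ⟨(bc.b₀ s.1, bc.b₁ s.2), isGen_bc hC i.n i.q ψ hψ bc h.p1 hs, ?_⟩, ?_⟩
  · have h1 := span_singleton_bc bc.isBaseChange₀ _ s.1 hspan
    rw [h1, Ideal.map_mul, map_ptIdeal ψ i.q]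
    congr 2
    change Ideal.map (tensorMapLeft k ψ B₀)
      (Ideal.map (H491.bc B₀ φ₀).toRingHom (H491.univIdeal (k := k) i.β)) = _
    rw [Ideal.map_map]
    congr 1
    refine RingHom.ext fun z => ?_
    induction z using TensorProduct.induction_on with
    | zero => simp
    | add z₁ z₂ h₁ h₂ => rw [map_add, map_add, h₁, h₂]
    | tmul a b => simp [tensorMapLeft, H491.bc]
  · have := h.unit.map ψ
    simpa using this

end WithAlg

end Core

section Main

variable {k : Type u} [Field k] [IsAlgClosed k]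
  {B₀ B₁ B₀₁ : Type u} [CommRing B₀] [CommRing B₁] [CommRing B₀₁]
  [Algebra k B₀] [Algebra k B₁] [Algebra k B₀₁] [Algebra B₀ B₀₁] [Algebra B₁ B₀₁]
  [IsScalarTower k B₀ B₀₁] [IsScalarTower k B₁ B₀₁]
  {x : B₀} {y : B₁} {e : B₁ →ₐ[k] k}
  {A A' : Type u} [CommRing A] [Algebra k A] [CommRing A'] [Algebra k A']

/-- **PT-BC** (exact skeleton statement): the point conditions are compatible with base
change, with Hilbert coordinates `ψ ∘ φ₀`. -/
theorem pointCond_bc (hC : IsCurveChart k B₀ B₁ B₀₁ x y e) (i : ChartIndex k B₀)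
    (hnum : i.Numeric B₀₁ y) {G : CurveGD k B₀ B₁ B₀₁ A} {G' : CurveGD k B₀ B₁ B₀₁ A'}
    (ψ : A →ₐ[k] A') (hbc : CurveGD.IsBC ψ G G') (hrig : G.Rigidifiable e) (hdeg : G.Deg0)
    {φ₀ : H491.Rβ k i.β →ₐ[k] A} (h : PointCond x y i G φ₀) :
    PointCond x y i G' (ψ.comp φ₀) := by
  letI : Algebra A A' := ψ.toRingHom.toAlgebra
  haveI : IsScalarTower k A A' := IsScalarTower.of_algebraMap_eq' (by
    ext c
    exact (ψ.commutes c).symm)
  exact pointCond_bc_aux hC i ψ (fun _ => rfl) hbc h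

/-- **PT-BC** as the leaf `H11.Leaf.PointBC`. -/
theorem leaf_pointBC : H11.Leaf.PointBC k B₀ B₁ B₀₁ :=
  fun _ _ _ hC i hnum _ _ _ _ _ _ _ _ ψ hbc hrig hdeg _ h =>
    pointCond_bc hC i hnum ψ hbc hrig hdeg h

end Main

end Fermat.Agent.S25.H265
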