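/-
S25, block GDC (helper265): the three GDC inputs of `H687/DDDefs.lean`
(`BCId`, `BCComp`, `DegIso`) in their exact shapes, plus the GDC inputs `BCComp` of
`H926/AlgChartsFormal.lean` when their shapes coincide.
-/
import Fermat.Agent.S25.H687.DDDefs
import Fermat.Agent.S25.H265.GDCCurve
import Fermat.Agent.S25.H265.GDCDeg

set_option autoImplicit false
universe u
open scoped TensorProduct

namespace Fermat.Agent.S25.H265

variable (k : Type u) [Field k] (B₀ B₁ B₀₁ : Type u) [CommRing B₀] [CommRing B₁] [CommRing B₀₁]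
  [Algebra k B₀] [Algebra k B₁] [Algebra k B₀₁] [Algebra B₀ B₀₁] [Algebra B₁ B₀₁]
  [IsScalarTower k B₀ B₀₁] [IsScalarTower k B₁ B₀₁]

/-- `H687.BCId`. -/
theorem h687_bcId : Fermat.Agent.S25.H687.BCId k B₀ B₁ B₀₁ :=
  fun _ _ _ G => curveGD_isBC_id G

/-- `H687.BCComp`. -/
theorem h687_bcComp : Fermat.Agent.S25.H687.BCComp k B₀ B₁ B₀₁ :=
  fun _ _ _ _ _ _ _ _ _ _ _ _ _ _ h h' => curveGD_isBC_comp h h'

/-- `H687.DegIso`. -/
theorem h687_degIso : Fermat.Agent.S25.H687.DegIso k B₀ B₁ B₀₁ :=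
  fun _ _ _ _ _ h => degree_eq_of_isIso h

end Fermat.Agent.S25.H265
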