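/-
S25, block GDC (helper265): the three GDC inputs of `H926/AlgChartsFormal.lean`
(`BCExists`, `BCComp`, `BCRig`) in their exact shapes.
-/
import Fermat.Agent.S25.H926.AlgChartsFormal
import Fermat.Agent.S25.H265.GDCBaseChange
import Fermat.Agent.S25.H265.GDCRig

set_option autoImplicit false
universe u
open scoped TensorProduct

namespace Fermat.Agent.S25.H265

variable (k : Type u) [Field k] (B₀ B₁ B₀₁ : Type u) [CommRing B₀] [CommRing B₁] [CommRing B₀₁]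
  [Algebra k B₀] [Algebra k B₁] [Algebra k B₀₁] [Algebra B₀ B₀₁] [Algebra B₁ B₀₁]
  [IsScalarTower k B₀ B₀₁] [IsScalarTower k B₁ B₀₁]

/-- `H926.BCExists`. -/
theorem h926_bcExists : Fermat.Agent.S25.H926.BCExists k B₀ B₁ B₀₁ :=
  fun _ _ _ _ _ _ φ G => curveGD_exists_isBC φ G

/-- `H926.BCComp`. -/
theorem h926_bcComp : Fermat.Agent.S25.H926.BCComp k B₀ B₁ B₀₁ :=
  fun _ _ _ _ _ _ _ _ _ _ _ _ _ _ h h' => curveGD_isBC_comp h h'

/-- `H926.BCRig`. -/
theorem h926_bcRig (e : B₁ →ₐ[k] k) :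
    Fermat.Agent.S25.H926.BCRig (B₀ := B₀) (B₀₁ := B₀₁) k B₁ e :=
  fun _ _ _ _ _ _ _ _ _ hbc h => rigidifiable_of_isBC hbc h

end Fermat.Agent.S25.H265
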