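import Fermat.Agent.S25.DefsDict
import Fermat.Agent.S25.H265.GDCRig

/-!
# S25 / helper265, bridge AS9: `Stmt.Charts` from the dictionary and `Stmt.AlgCharts` (formal)

The gluing-datum calculus used here is proved unconditionally in `H265/GDC*.lean`.
-/

set_option autoImplicit false
universe u
open CategoryTheory CategoryTheory.Limits AlgebraicGeometry AlgebraicGeometry.RelPicard
  NeronModelInfra GoodReductionJacobian

namespace Fermat.Agent.S25.H265

open Fermat.Agent.S25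

variable {k : Type u} [Field k] {C : Scheme.{u}} {c : C ⟶ Spec (CommRingCat.of k)}
  {ε : SchemeHomOver (𝟙 (Spec (CommRingCat.of k))) c}

/-- **AS9.** A chart family for the functor from an algebraic chart family and the
dictionary. -/
theorem charts_of_alg (Ch : ChartOf c ε) (hSec : Stmt.DictSections Ch)
    (hGlue : Stmt.DictGlue Ch) (hIso : Stmt.DictIso Ch) (hBC : Stmt.DictBC Ch)
    (hDeg : Stmt.DictDeg Ch) (hEx : Stmt.AlgBCExists Ch)
    (hCh : Stmt.AlgCharts k Ch.B₀ Ch.B₁ Ch.B₀₁) : Stmt.Charts c ε := by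
  obtain ⟨F⟩ := hCh Ch.x Ch.y Ch.e Ch.isCurveChart
  choose M hM using fun i => hGlue (F.R i) (F.datum i) (F.rig i)
  refine ⟨{ ι := F.ι, R := F.R, finiteType := F.finiteType, bundle := M,
            deg0 := fun i => (hDeg (F.R i) (M i) (F.datum i) (hM i)).2 (F.deg0 i),
            inj := ?_, locus := ?_ }⟩
  · intro i A _ _ φ ψ hiso
    obtain ⟨G, hG⟩ := hEx (F.R i) A φ (F.datum i)
    obtain ⟨G', hG'⟩ := hEx (F.R i) A ψ (F.datum i)
    have h1 := hBC (F.R i) A φ (M i) (F.datum i) G (hM i) hG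
    have h2 := hBC (F.R i) A ψ (M i) (F.datum i) G' (hM i) hG'
    exact F.inj i A φ ψ G G' hG hG' ((hIso A _ _ G G' h1 h2).1 hiso)
  · intro A _ _ N hN
    obtain ⟨G, hG, hrig⟩ := hSec A N
    have hdeg : G.Deg0 := (hDeg A N G hG).1 hN
    obtain ⟨I, hI, hloc⟩ := F.locus A G hrig hdeg
    refine ⟨I, hI, fun i A' _ _ ψ => ?_⟩
    obtain ⟨G', hG'⟩ := hEx A A' ψ G
    have h2 := hBC A A' ψ N G G' hG hG'
    rw [← hloc i A' ψ G' hG']
    constructor
    · rintro ⟨φ, hφ⟩
      obtain ⟨G'', hG''⟩ := hEx (F.R i) A' φ (F.datum i)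
      have h1 := hBC (F.R i) A' φ (M i) (F.datum i) G'' (hM i) hG''
      exact ⟨φ, curveGD_isBC_of_isIso_right hG'' ((hIso A' _ _ G'' G' h1 h2).1 hφ)⟩
    · rintro ⟨φ, hφ⟩
      have h1 := hBC (F.R i) A' φ (M i) (F.datum i) G' (hM i) hφ
      exact ⟨φ, (hIso A' _ _ G' G' h1 h2).2 (isIso_refl G')⟩

end Fermat.Agent.S25.H265
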