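import Fermat.Agent.S25.DefsDict
import Fermat.Agent.S25.H265.GDCRig

/-!
# S25 / helper265, bridge AS7: `Stmt.Def` from the dictionary and `Stmt.AlgDef` (formal)

The gluing-datum calculus used here (`rigidifiable_of_isBC_quotient_sq`,
`deg0_of_isBC_quotient_sq`, `isIso_refl`) is proved unconditionally in `H265/GDC*.lean`, so
the bridge has no hypotheses besides the frozen `Stmt`s.
-/

set_option autoImplicit false
universe u
open CategoryTheory CategoryTheory.Limits AlgebraicGeometry AlgebraicGeometry.RelPicard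
  NeronModelInfra GoodReductionJacobian

namespace Fermat.Agent.S25.H265

open Fermat.Agent.S25

variable {k : Type u} [Field k] {C : Scheme.{u}} {c : C ⟶ Spec (CommRingCat.of k)}
  {ε : SchemeHomOver (𝟙 (Spec (CommRingCat.of k))) c}

/-- **AS7.** `Def` follows formally from the dictionary and `AlgDef`. -/
theorem def_of_alg (Ch : ChartOf c ε) (hSec : Stmt.DictSections Ch)
    (hGlue : Stmt.DictGlue Ch) (hIso : Stmt.DictIso Ch) (hBC : Stmt.DictBC Ch)
    (hDeg : Stmt.DictDeg Ch) (hDef : Stmt.AlgDef k Ch.B₀ Ch.B₁ Ch.B₀₁) : Stmt.Def c ε := by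
  intro A _ _ I hI M₀ hM₀
  obtain ⟨G₀, hG₀, hrig₀⟩ := hSec (A ⧸ I) M₀
  obtain ⟨G, hG⟩ := hDef Ch.x Ch.y Ch.e Ch.isCurveChart A I hI G₀
  have hrig : G.Rigidifiable Ch.e := rigidifiable_of_isBC_quotient_sq I hI hG hrig₀
  obtain ⟨M, hM⟩ := hGlue A G hrig
  have hdeg₀ : G₀.Deg0 := (hDeg (A ⧸ I) M₀ G₀ hG₀).1 hM₀
  have hdeg : G.Deg0 := deg0_of_isBC_quotient_sq I hI hG hdeg₀
  refine ⟨M, (hDeg A M G hM).2 hdeg, ?_⟩
  have h1 := hBC A (A ⧸ I) (Ideal.Quotient.mkₐ k I) M G G₀ hM hG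
  exact (hIso (A ⧸ I) _ M₀ G₀ G₀ h1 hG₀).2 (isIso_refl G₀)

end Fermat.Agent.S25.H265
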