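import Fermat.Agent.S25.H265.GDCSemi

/-!
# S25 / helper265, block GDC, part 2: isomorphisms and base change of gluing data

`GlueDatum.IsIso` is an equivalence relation; `GlueDatum.IsBC` has identities, composites,
is unique up to `IsIso`, is invariant under `IsIso` on both sides and satisfies cancellation.
-/

set_option autoImplicit false
set_option linter.style.haveILetI false

universe u

namespace Fermat.Agent.S25.H265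

open Fermat.Agent.S25 GlueDatum

section Iso

variable {A R₀ R₁ R₀₁ : Type u} [CommRing A] [CommRing R₀] [CommRing R₁]
    [CommRing R₀₁] [Algebra A R₀] [Algebra A R₁] [Algebra A R₀₁] [Algebra R₀ R₀₁]
    [Algebra R₁ R₀₁] [IsScalarTower A R₀ R₀₁] [IsScalarTower A R₁ R₀₁]

/-- The identity isomorphism of a gluing datum. -/
def isoRefl (G : GlueDatum A R₀ R₁ R₀₁) : GlueDatum.Iso G G where
  e₀ := LinearEquiv.refl _ _
  e₁ := LinearEquiv.refl _ _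
  e₀₁ := LinearEquiv.refl _ _
  comm₀ := fun _ => rfl
  comm₁ := fun _ => rfl

/-- The inverse of an isomorphism of gluing data. -/
def isoSymm {G G' : GlueDatum A R₀ R₁ R₀₁} (e : GlueDatum.Iso G G') : GlueDatum.Iso G' G where
  e₀ := e.e₀.symm
  e₁ := e.e₁.symm
  e₀₁ := e.e₀₁.symm
  comm₀ := fun s => by
    rw [LinearEquiv.symm_apply_eq, e.comm₀, LinearEquiv.apply_symm_apply]
  comm₁ := fun s => by
    rw [LinearEquiv.symm_apply_eq, e.comm₁, LinearEquiv.apply_symm_apply]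

/-- The composite of two isomorphisms of gluing data. -/
def isoTrans {G G' G'' : GlueDatum A R₀ R₁ R₀₁} (e : GlueDatum.Iso G G')
    (e' : GlueDatum.Iso G' G'') : GlueDatum.Iso G G'' where
  e₀ := e.e₀.trans e'.e₀
  e₁ := e.e₁.trans e'.e₁
  e₀₁ := e.e₀₁.trans e'.e₀₁
  comm₀ := fun s => by
    rw [LinearEquiv.trans_apply, e.comm₀, e'.comm₀, LinearEquiv.trans_apply]
  comm₁ := fun s => by
    rw [LinearEquiv.trans_apply, e.comm₁, e'.comm₁, LinearEquiv.trans_apply]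

theorem isIso_refl (G : GlueDatum A R₀ R₁ R₀₁) : G.IsIso G := ⟨isoRefl G⟩

theorem isIso_symm {G G' : GlueDatum A R₀ R₁ R₀₁} (h : G.IsIso G') : G'.IsIso G :=
  ⟨isoSymm h.some⟩

theorem isIso_trans {G G' G'' : GlueDatum A R₀ R₁ R₀₁} (h : G.IsIso G') (h' : G'.IsIso G'') :
    G.IsIso G'' :=
  ⟨isoTrans h.some h'.some⟩

theorem isIso_equivalence : Equivalence (GlueDatum.IsIso (A := A) (R₀ := R₀) (R₁ := R₁)
    (R₀₁ := R₀₁)) :=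
  ⟨isIso_refl, isIso_symm, isIso_trans⟩

/-- `e₀` is `A`-linear. -/
theorem iso_e₀_smul {G G' : GlueDatum A R₀ R₁ R₀₁} (e : GlueDatum.Iso G G') (a : A)
    (s : G.N₀) : e.e₀ (a • s) = a • e.e₀ s := by
  rw [← algebraMap_smul R₀ a s, map_smul, algebraMap_smul]

/-- `e₁` is `A`-linear. -/
theorem iso_e₁_smul {G G' : GlueDatum A R₀ R₁ R₀₁} (e : GlueDatum.Iso G G') (a : A)
    (s : G.N₁) : e.e₁ (a • s) = a • e.e₁ s := by
  rw [← algebraMap_smul R₁ a s, map_smul, algebraMap_smul]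

/-- `e₀₁` is `A`-linear. -/
theorem iso_e₀₁_smul {G G' : GlueDatum A R₀ R₁ R₀₁} (e : GlueDatum.Iso G G') (a : A)
    (s : G.N₀₁) : e.e₀₁ (a • s) = a • e.e₀₁ s := by
  rw [← algebraMap_smul R₀₁ a s, map_smul, algebraMap_smul]

end Iso

section BC

variable {A R₀ R₁ R₀₁ : Type u} [CommRing A] [CommRing R₀] [CommRing R₁]
    [CommRing R₀₁] [Algebra A R₀] [Algebra A R₁] [Algebra A R₀₁] [Algebra R₀ R₀₁]
    [Algebra R₁ R₀₁] [IsScalarTower A R₀ R₀₁] [IsScalarTower A R₁ R₀₁]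
    {A' R₀' R₁' R₀₁' : Type u} [CommRing A'] [CommRing R₀'] [CommRing R₁']
    [CommRing R₀₁'] [Algebra A' R₀'] [Algebra A' R₁'] [Algebra A' R₀₁'] [Algebra R₀' R₀₁']
    [Algebra R₁' R₀₁'] [IsScalarTower A' R₀' R₀₁'] [IsScalarTower A' R₁' R₀₁']
    {A'' R₀'' R₁'' R₀₁'' : Type u} [CommRing A''] [CommRing R₀''] [CommRing R₁'']
    [CommRing R₀₁''] [Algebra A'' R₀''] [Algebra A'' R₁''] [Algebra A'' R₀₁'']
    [Algebra R₀'' R₀₁''] [Algebra R₁'' R₀₁''] [IsScalarTower A'' R₀'' R₀₁'']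
    [IsScalarTower A'' R₁'' R₀₁'']

/-- `r₀` is semilinear over `algebraMap R₀ R₀₁`. -/
theorem r₀_smul (G : GlueDatum A R₀ R₁ R₀₁) (r : R₀) (s : G.N₀) :
    G.r₀ (r • s) = algebraMap R₀ R₀₁ r • G.r₀ s := by
  rw [map_smul, algebraMap_smul]

/-- `r₁` is semilinear over `algebraMap R₁ R₀₁`. -/
theorem r₁_smul (G : GlueDatum A R₀ R₁ R₀₁) (r : R₁) (s : G.N₁) :
    G.r₁ (r • s) = algebraMap R₁ R₀₁ r • G.r₁ s := by
  rw [map_smul, algebraMap_smul]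

variable {ρ₀ : R₀ →+* R₀'} {ρ₁ : R₁ →+* R₁'} {ρ₀₁ : R₀₁ →+* R₀₁'}
  {σ₀ : R₀' →+* R₀''} {σ₁ : R₁' →+* R₁''} {σ₀₁ : R₀₁' →+* R₀₁''}

theorem bcmUp₀ {G : GlueDatum A R₀ R₁ R₀₁} {G' : GlueDatum A' R₀' R₁' R₀₁'}
    (m : BaseChangeMaps ρ₀ ρ₁ ρ₀₁ G G') : SemiUP ρ₀ m.b₀ :=
  semiUP_of_isSemilinearBaseChange _ _ m.isBaseChange₀

theorem bcmUp₁ {G : GlueDatum A R₀ R₁ R₀₁} {G' : GlueDatum A' R₀' R₁' R₀₁'}
    (m : BaseChangeMaps ρ₀ ρ₁ ρ₀₁ G G') : SemiUP ρ₁ m.b₁ :=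
  semiUP_of_isSemilinearBaseChange _ _ m.isBaseChange₁

theorem bcmUp₀₁ {G : GlueDatum A R₀ R₁ R₀₁} {G' : GlueDatum A' R₀' R₁' R₀₁'}
    (m : BaseChangeMaps ρ₀ ρ₁ ρ₀₁ G G') : SemiUP ρ₀₁ m.b₀₁ :=
  semiUP_of_isSemilinearBaseChange _ _ m.isBaseChange₀₁

/-- Every gluing datum is its own base change along the identity. -/
theorem isBC_id (G : GlueDatum A R₀ R₁ R₀₁) :
    GlueDatum.IsBC (RingHom.id R₀) (RingHom.id R₁) (RingHom.id R₀₁) G G :=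
  ⟨{ b₀ := LinearMap.id
     b₁ := LinearMap.id
     b₀₁ := LinearMap.id
     comm₀ := fun _ => rfl
     comm₁ := fun _ => rfl
     isBaseChange₀ := isSemilinearBaseChange_of_semiUP _ _ semiUP_id
     isBaseChange₁ := isSemilinearBaseChange_of_semiUP _ _ semiUP_id
     isBaseChange₀₁ := isSemilinearBaseChange_of_semiUP _ _ semiUP_id }⟩

/-- Transport of `IsBC` along equalities of the ring maps. -/
theorem IsBC.congr {G : GlueDatum A R₀ R₁ R₀₁} {G' : GlueDatum A' R₀' R₁' R₀₁'}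
    {ρ₀' : R₀ →+* R₀'} {ρ₁' : R₁ →+* R₁'} {ρ₀₁' : R₀₁ →+* R₀₁'}
    (h₀ : ρ₀ = ρ₀') (h₁ : ρ₁ = ρ₁') (h₀₁ : ρ₀₁ = ρ₀₁')
    (h : GlueDatum.IsBC ρ₀ ρ₁ ρ₀₁ G G') : GlueDatum.IsBC ρ₀' ρ₁' ρ₀₁' G G' := by
  subst h₀ h₁ h₀₁
  exact h

/-- Composition of base changes. -/
theorem IsBC.comp {G : GlueDatum A R₀ R₁ R₀₁} {G' : GlueDatum A' R₀' R₁' R₀₁'}
    {G'' : GlueDatum A'' R₀'' R₁'' R₀₁''}
    (h : GlueDatum.IsBC ρ₀ ρ₁ ρ₀₁ G G') (h' : GlueDatum.IsBC σ₀ σ₁ σ₀₁ G' G'') :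
    GlueDatum.IsBC (σ₀.comp ρ₀) (σ₁.comp ρ₁) (σ₀₁.comp ρ₀₁) G G'' := by
  obtain ⟨m⟩ := h
  obtain ⟨m'⟩ := h'
  haveI : RingHomCompTriple ρ₀ σ₀ (σ₀.comp ρ₀) := ⟨rfl⟩
  haveI : RingHomCompTriple ρ₁ σ₁ (σ₁.comp ρ₁) := ⟨rfl⟩
  haveI : RingHomCompTriple ρ₀₁ σ₀₁ (σ₀₁.comp ρ₀₁) := ⟨rfl⟩
  exact ⟨{ b₀ := m'.b₀.comp m.b₀
           b₁ := m'.b₁.comp m.b₁
           b₀₁ := m'.b₀₁.comp m.b₀₁
           comm₀ := fun s => by
             rw [LinearMap.comp_apply, LinearMap.comp_apply, m.comm₀, m'.comm₀]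
           comm₁ := fun s => by
             rw [LinearMap.comp_apply, LinearMap.comp_apply, m.comm₁, m'.comm₁]
           isBaseChange₀ := isSemilinearBaseChange_of_semiUP _ _ ((bcmUp₀ m).comp (bcmUp₀ m'))
           isBaseChange₁ := isSemilinearBaseChange_of_semiUP _ _ ((bcmUp₁ m).comp (bcmUp₁ m'))
           isBaseChange₀₁ := isSemilinearBaseChange_of_semiUP _ _ ((bcmUp₀₁ m).comp (bcmUp₀₁ m')) }⟩

/-- Base change is unique up to isomorphism. -/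
theorem isIso_of_isBC {G : GlueDatum A R₀ R₁ R₀₁} {G' G'' : GlueDatum A' R₀' R₁' R₀₁'}
    (h : GlueDatum.IsBC ρ₀ ρ₁ ρ₀₁ G G') (h' : GlueDatum.IsBC ρ₀ ρ₁ ρ₀₁ G G'') :
    G'.IsIso G'' := by
  obtain ⟨m⟩ := h
  obtain ⟨m'⟩ := h'
  obtain ⟨e₀, he₀⟩ := (bcmUp₀ m).exists_equiv (bcmUp₀ m')
  obtain ⟨e₁, he₁⟩ := (bcmUp₁ m).exists_equiv (bcmUp₁ m')
  obtain ⟨e₀₁, he₀₁⟩ := (bcmUp₀₁ m).exists_equiv (bcmUp₀₁ m')
  refine ⟨{ e₀ := e₀, e₁ := e₁, e₀₁ := e₀₁, comm₀ := ?_, comm₁ := ?_ }⟩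
  · refine (bcmUp₀ m).funext (algebraMap R₀' R₀₁') (fun s => e₀₁ (G'.r₀ s)) (fun s => G''.r₀ (e₀ s))
      (fun x y => by simp) (fun r x => by rw [r₀_smul, map_smul])
      (fun x y => by simp) (fun r x => by rw [map_smul, r₀_smul]) (fun n => ?_)
    rw [← m.comm₀, he₀₁, he₀, m'.comm₀]
  · refine (bcmUp₁ m).funext (algebraMap R₁' R₀₁') (fun s => e₀₁ (G'.r₁ s)) (fun s => G''.r₁ (e₁ s))
      (fun x y => by simp) (fun r x => by rw [r₁_smul, map_smul])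
      (fun x y => by simp) (fun r x => by rw [map_smul, r₁_smul]) (fun n => ?_)
    rw [← m.comm₁, he₀₁, he₁, m'.comm₁]

/-- `IsBC` is invariant under isomorphism of the target. -/
theorem IsBC.of_isIso_right {G : GlueDatum A R₀ R₁ R₀₁} {G' G'' : GlueDatum A' R₀' R₁' R₀₁'}
    (h : GlueDatum.IsBC ρ₀ ρ₁ ρ₀₁ G G') (e : G'.IsIso G'') :
    GlueDatum.IsBC ρ₀ ρ₁ ρ₀₁ G G'' := by
  obtain ⟨m⟩ := h
  obtain ⟨e⟩ := e
  exact ⟨{ b₀ := (e.e₀ : G'.N₀ →ₗ[R₀'] G''.N₀).comp m.b₀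
           b₁ := (e.e₁ : G'.N₁ →ₗ[R₁'] G''.N₁).comp m.b₁
           b₀₁ := (e.e₀₁ : G'.N₀₁ →ₗ[R₀₁'] G''.N₀₁).comp m.b₀₁
           comm₀ := fun s => by
             simp only [LinearMap.comp_apply, LinearEquiv.coe_coe]
             rw [m.comm₀, e.comm₀]
           comm₁ := fun s => by
             simp only [LinearMap.comp_apply, LinearEquiv.coe_coe]
             rw [m.comm₁, e.comm₁]
           isBaseChange₀ := isSemilinearBaseChange_of_semiUP _ _ ((bcmUp₀ m).comp_equiv e.e₀)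
           isBaseChange₁ := isSemilinearBaseChange_of_semiUP _ _ ((bcmUp₁ m).comp_equiv e.e₁)
           isBaseChange₀₁ := isSemilinearBaseChange_of_semiUP _ _ ((bcmUp₀₁ m).comp_equiv e.e₀₁) }⟩

/-- `IsBC` is invariant under isomorphism of the source. -/
theorem IsBC.of_isIso_left {G G₁ : GlueDatum A R₀ R₁ R₀₁} {G' : GlueDatum A' R₀' R₁' R₀₁'}
    (e : G.IsIso G₁) (h : GlueDatum.IsBC ρ₀ ρ₁ ρ₀₁ G G') :
    GlueDatum.IsBC ρ₀ ρ₁ ρ₀₁ G₁ G' := by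
  obtain ⟨m⟩ := h
  obtain ⟨e⟩ := e
  exact ⟨{ b₀ := m.b₀.comp (e.e₀.symm : G₁.N₀ →ₗ[R₀] G.N₀)
           b₁ := m.b₁.comp (e.e₁.symm : G₁.N₁ →ₗ[R₁] G.N₁)
           b₀₁ := m.b₀₁.comp (e.e₀₁.symm : G₁.N₀₁ →ₗ[R₀₁] G.N₀₁)
           comm₀ := fun s => by
             simp only [LinearMap.comp_apply, LinearEquiv.coe_coe]
             rw [← m.comm₀]
             exact congrArg _ ((isoSymm e).comm₀ s)
           comm₁ := fun s => by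
             simp only [LinearMap.comp_apply, LinearEquiv.coe_coe]
             rw [← m.comm₁]
             exact congrArg _ ((isoSymm e).comm₁ s)
           isBaseChange₀ := isSemilinearBaseChange_of_semiUP _ _ ((bcmUp₀ m).equiv_comp e.e₀.symm)
           isBaseChange₁ := isSemilinearBaseChange_of_semiUP _ _ ((bcmUp₁ m).equiv_comp e.e₁.symm)
           isBaseChange₀₁ :=
             isSemilinearBaseChange_of_semiUP _ _ ((bcmUp₀₁ m).equiv_comp e.e₀₁.symm) }⟩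

/-- Cancellation: if `G'` is the base change of `G` along `ρ` and `G''` is the base change of
`G` along `σ ∘ ρ`, where `σ` is a morphism of cospans, then `G''` is the base change of `G'`
along `σ`. -/
theorem IsBC.of_comp {G : GlueDatum A R₀ R₁ R₀₁} {G' : GlueDatum A' R₀' R₁' R₀₁'}
    {G'' : GlueDatum A'' R₀'' R₁'' R₀₁''}
    (hcosp₀ : ∀ r, σ₀₁ (algebraMap R₀' R₀₁' r) = algebraMap R₀'' R₀₁'' (σ₀ r))
    (hcosp₁ : ∀ r, σ₀₁ (algebraMap R₁' R₀₁' r) = algebraMap R₁'' R₀₁'' (σ₁ r))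
    (h : GlueDatum.IsBC ρ₀ ρ₁ ρ₀₁ G G')
    (hc : GlueDatum.IsBC (σ₀.comp ρ₀) (σ₁.comp ρ₁) (σ₀₁.comp ρ₀₁) G G'') :
    GlueDatum.IsBC σ₀ σ₁ σ₀₁ G' G'' := by
  obtain ⟨m⟩ := h
  obtain ⟨m''⟩ := hc
  haveI : RingHomCompTriple ρ₀ σ₀ (σ₀.comp ρ₀) := ⟨rfl⟩
  haveI : RingHomCompTriple ρ₁ σ₁ (σ₁.comp ρ₁) := ⟨rfl⟩
  haveI : RingHomCompTriple ρ₀₁ σ₀₁ (σ₀₁.comp ρ₀₁) := ⟨rfl⟩
  obtain ⟨b₀, hb₀⟩ := (bcmUp₀ m).exists_lift σ₀ (fun n => m''.b₀ n) (fun x y => by simp)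
    (fun r x => by rw [LinearMap.map_smulₛₗ]; rfl)
  obtain ⟨b₁, hb₁⟩ := (bcmUp₁ m).exists_lift σ₁ (fun n => m''.b₁ n) (fun x y => by simp)
    (fun r x => by rw [LinearMap.map_smulₛₗ]; rfl)
  obtain ⟨b₀₁, hb₀₁⟩ := (bcmUp₀₁ m).exists_lift σ₀₁ (fun n => m''.b₀₁ n) (fun x y => by simp)
    (fun r x => by rw [LinearMap.map_smulₛₗ]; rfl)
  have e₀ : (b₀.comp m.b₀ : G.N₀ →ₛₗ[σ₀.comp ρ₀] G''.N₀) = m''.b₀ := LinearMap.ext hb₀
  have e₁ : (b₁.comp m.b₁ : G.N₁ →ₛₗ[σ₁.comp ρ₁] G''.N₁) = m''.b₁ := LinearMap.ext hb₁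
  have e₀₁ : (b₀₁.comp m.b₀₁ : G.N₀₁ →ₛₗ[σ₀₁.comp ρ₀₁] G''.N₀₁) = m''.b₀₁ :=
    LinearMap.ext hb₀₁
  refine ⟨{ b₀ := b₀, b₁ := b₁, b₀₁ := b₀₁, comm₀ := ?_, comm₁ := ?_,
            isBaseChange₀ := ?_, isBaseChange₁ := ?_, isBaseChange₀₁ := ?_ }⟩
  · refine (bcmUp₀ m).funext ((algebraMap R₀'' R₀₁'').comp σ₀)
      (fun s => b₀₁ (G'.r₀ s)) (fun s => G''.r₀ (b₀ s))
      (fun x y => by simp)
      (fun r x => by
        rw [r₀_smul, LinearMap.map_smulₛₗ, hcosp₀]; rfl)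
      (fun x y => by simp)
      (fun r x => by rw [LinearMap.map_smulₛₗ, r₀_smul]; rfl) (fun n => ?_)
    rw [← m.comm₀, hb₀₁, hb₀, m''.comm₀]
  · refine (bcmUp₁ m).funext ((algebraMap R₁'' R₀₁'').comp σ₁)
      (fun s => b₀₁ (G'.r₁ s)) (fun s => G''.r₁ (b₁ s))
      (fun x y => by simp)
      (fun r x => by
        rw [r₁_smul, LinearMap.map_smulₛₗ, hcosp₁]; rfl)
      (fun x y => by simp)
      (fun r x => by rw [LinearMap.map_smulₛₗ, r₁_smul]; rfl) (fun n => ?_)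
    rw [← m.comm₁, hb₀₁, hb₁, m''.comm₁]
  · refine isSemilinearBaseChange_of_semiUP _ _ ((bcmUp₀ m).of_comp (τ := σ₀.comp ρ₀) ?_)
    rw [e₀]
    exact bcmUp₀ m''
  · refine isSemilinearBaseChange_of_semiUP _ _ ((bcmUp₁ m).of_comp (τ := σ₁.comp ρ₁) ?_)
    rw [e₁]
    exact bcmUp₁ m''
  · refine isSemilinearBaseChange_of_semiUP _ _ ((bcmUp₀₁ m).of_comp (τ := σ₀₁.comp ρ₀₁) ?_)
    rw [e₀₁]
    exact bcmUp₀₁ m''

end BC

end Fermat.Agent.S25.H265
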