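import Fermat.Agent.S25.DefsAlg

/-!
# S25 / helper265, block GDC (gluing-datum calculus), part 1: semilinear base change

The frozen predicate `IsSemilinearBaseChange ρ b` (DefsAlg) is characterised by a universal
property that does not mention any auxiliary instance (`SemiUP`), and the usual calculus is
derived: identity, composition, cancellation, uniqueness, transport along equivalences.
-/

set_option autoImplicit false
set_option linter.style.haveILetI false

universe u

namespace Fermat.Agent.S25.H265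

open Fermat.Agent.S25

section Semi

variable {R R' : Type u} [CommRing R] [CommRing R'] (ρ : R →+* R')
    {N N' : Type u} [AddCommGroup N] [Module R N] [AddCommGroup N'] [Module R' N']

/-- Universal property of a semilinear base change. -/
def SemiUP (b : N →ₛₗ[ρ] N') : Prop :=
  ∀ (Q : Type u) [AddCommMonoid Q] [Module R' Q] (g : N →ₛₗ[ρ] Q),
    ∃! g' : N' →ₗ[R'] Q, ∀ n, g' (b n) = g n

theorem semiUP_of_isSemilinearBaseChange (b : N →ₛₗ[ρ] N')
    (h : IsSemilinearBaseChange ρ b) : SemiUP ρ b := by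
  intro Q _ _ g
  letI : Algebra R R' := ρ.toAlgebra
  letI : Module R N' := Module.compHom N' ρ
  haveI : IsScalarTower R R' N' := ⟨fun r r' n => by
    change (ρ r * r') • n = ρ r • (r' • n); rw [mul_smul]⟩
  letI : Module R Q := Module.compHom Q ρ
  haveI : IsScalarTower R R' Q := ⟨fun r r' n => by
    change (ρ r * r') • n = ρ r • (r' • n); rw [mul_smul]⟩
  let f : N →ₗ[R] N' :=
    { toFun := fun n => b n
      map_add' := fun m n => b.map_add m n
      map_smul' := fun r n => LinearMap.map_smulₛₗ b r n }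
  have hf : IsBaseChange R' f := h
  let g₀ : N →ₗ[R] Q :=
    { toFun := fun n => g n
      map_add' := fun m n => g.map_add m n
      map_smul' := fun r n => LinearMap.map_smulₛₗ g r n }
  refine ⟨hf.lift g₀, fun n => hf.lift_eq g₀ n, fun g' hg' => ?_⟩
  exact hf.algHom_ext _ _ (fun n => (hg' n).trans (hf.lift_eq g₀ n).symm)

theorem isSemilinearBaseChange_of_semiUP (b : N →ₛₗ[ρ] N') (h : SemiUP ρ b) :
    IsSemilinearBaseChange ρ b := by
  letI : Algebra R R' := ρ.toAlgebra
  letI : Module R N' := Module.compHom N' ρ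
  haveI : IsScalarTower R R' N' := ⟨fun r r' n => by
    change (ρ r * r') • n = ρ r • (r' • n); rw [mul_smul]⟩
  let f : N →ₗ[R] N' :=
    { toFun := fun n => b n
      map_add' := fun m n => b.map_add m n
      map_smul' := fun r n => LinearMap.map_smulₛₗ b r n }
  change IsBaseChange R' f
  apply IsBaseChange.of_lift_unique
  intro Q _ _ _ _ g
  have hsm : ∀ (r : R) (q : Q), r • q = ρ r • q := fun r q => by
    have := smul_assoc r (1 : R') q
    rw [one_smul] at this
    rw [← this]
    congr 1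
    change ρ r * 1 = ρ r
    rw [mul_one]
  let g₁ : N →ₛₗ[ρ] Q :=
    { toFun := fun n => g n
      map_add' := fun m n => g.map_add m n
      map_smul' := fun r n => by
        change g (r • n) = ρ r • g n
        rw [g.map_smul, hsm] }
  obtain ⟨g', hg', huniq⟩ := h Q g₁
  refine ⟨g', ?_, fun y hy => huniq y (fun n => ?_)⟩
  · ext n
    exact hg' n
  · exact LinearMap.congr_fun hy n

theorem isSemilinearBaseChange_iff_semiUP (b : N →ₛₗ[ρ] N') :
    IsSemilinearBaseChange ρ b ↔ SemiUP ρ b :=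
  ⟨semiUP_of_isSemilinearBaseChange ρ b, isSemilinearBaseChange_of_semiUP ρ b⟩

/-- Generalised universal property: semilinear maps out of a semilinear base change. -/
theorem SemiUP.existsUnique {ρ : R →+* R'} {b : N →ₛₗ[ρ] N'} (h : SemiUP ρ b)
    {R'' : Type u} [CommRing R''] (σ : R' →+* R'') (τ : R →+* R'') [RingHomCompTriple ρ σ τ]
    (Q : Type u) [AddCommMonoid Q] [Module R'' Q] (g : N →ₛₗ[τ] Q) :
    ∃! g' : N' →ₛₗ[σ] Q, ∀ n, g' (b n) = g n := by
  letI : Module R' Q := Module.compHom Q σ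
  have hτ : ∀ r, τ r = σ (ρ r) := fun r => (RingHomCompTriple.comp_apply (σ₁₂ := ρ)).symm
  let g₁ : N →ₛₗ[ρ] Q :=
    { toFun := fun n => g n
      map_add' := fun m n => g.map_add m n
      map_smul' := fun r n => by
        change g (r • n) = σ (ρ r) • g n
        rw [LinearMap.map_smulₛₗ, hτ] }
  obtain ⟨g', hg', huniq⟩ := h Q g₁
  let g'' : N' →ₛₗ[σ] Q :=
    { toFun := fun n => g' n
      map_add' := fun m n => g'.map_add m n
      map_smul' := fun r n => by
        change g' (r • n) = σ r • g' n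
        rw [g'.map_smul]
        rfl }
  refine ⟨g'', hg', fun y hy => ?_⟩
  let y' : N' →ₗ[R'] Q :=
    { toFun := fun n => y n
      map_add' := fun m n => y.map_add m n
      map_smul' := fun r n => by
        change y (r • n) = σ r • y n
        rw [LinearMap.map_smulₛₗ] }
  have := huniq y' hy
  ext n
  exact LinearMap.congr_fun this n

/-- Two semilinear maps out of a semilinear base change agreeing on the image agree. -/
theorem SemiUP.hom_ext {ρ : R →+* R'} {b : N →ₛₗ[ρ] N'} (h : SemiUP ρ b)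
    {R'' : Type u} [CommRing R''] (σ : R' →+* R'')
    {Q : Type u} [AddCommMonoid Q] [Module R'' Q] (g₁ g₂ : N' →ₛₗ[σ] Q)
    (hg : ∀ n, g₁ (b n) = g₂ (b n)) : g₁ = g₂ := by
  haveI : RingHomCompTriple ρ σ (σ.comp ρ) := ⟨rfl⟩
  obtain ⟨g', -, huniq⟩ := h.existsUnique σ (σ.comp ρ) Q (g₂.comp b)
  rw [huniq g₁ (fun n => hg n), huniq g₂ (fun n => rfl)]

/-- Function-level extensionality: two additive maps out of a semilinear base change which are
both semilinear over the same ring map and agree on the image agree. -/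
theorem SemiUP.funext {ρ : R →+* R'} {b : N →ₛₗ[ρ] N'} (h : SemiUP ρ b)
    {R'' : Type u} [CommRing R''] (σ : R' →+* R'')
    {Q : Type u} [AddCommMonoid Q] [Module R'' Q] (g₁ g₂ : N' → Q)
    (hadd₁ : ∀ x y, g₁ (x + y) = g₁ x + g₁ y) (hsmul₁ : ∀ r x, g₁ (r • x) = σ r • g₁ x)
    (hadd₂ : ∀ x y, g₂ (x + y) = g₂ x + g₂ y) (hsmul₂ : ∀ r x, g₂ (r • x) = σ r • g₂ x)
    (hg : ∀ n, g₁ (b n) = g₂ (b n)) (n' : N') : g₁ n' = g₂ n' := by
  let G₁ : N' →ₛₗ[σ] Q := { toFun := g₁, map_add' := hadd₁, map_smul' := hsmul₁ }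
  let G₂ : N' →ₛₗ[σ] Q := { toFun := g₂, map_add' := hadd₂, map_smul' := hsmul₂ }
  have : G₁ = G₂ := h.hom_ext σ G₁ G₂ hg
  exact LinearMap.congr_fun this n'

/-- Function-level existence: an additive map `g : N → Q` that is semilinear over `σ ∘ ρ`
factors through a `σ`-semilinear map on the base change. -/
theorem SemiUP.exists_lift {ρ : R →+* R'} {b : N →ₛₗ[ρ] N'} (h : SemiUP ρ b)
    {R'' : Type u} [CommRing R''] (σ : R' →+* R'')
    {Q : Type u} [AddCommMonoid Q] [Module R'' Q] (g : N → Q)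
    (hadd : ∀ x y, g (x + y) = g x + g y) (hsmul : ∀ r x, g (r • x) = σ (ρ r) • g x) :
    ∃ g' : N' →ₛₗ[σ] Q, ∀ n, g' (b n) = g n := by
  haveI : RingHomCompTriple ρ σ (σ.comp ρ) := ⟨rfl⟩
  let G : N →ₛₗ[σ.comp ρ] Q := { toFun := g, map_add' := hadd, map_smul' := hsmul }
  obtain ⟨g', hg', -⟩ := h.existsUnique σ (σ.comp ρ) Q G
  exact ⟨g', hg'⟩

/-- The identity is a base change along the identity. -/
theorem semiUP_id : SemiUP (RingHom.id R) (LinearMap.id : N →ₗ[R] N) := by
  intro Q _ _ g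
  exact ⟨g, fun _ => rfl, fun y hy => LinearMap.ext hy⟩

/-- A linear equivalence is a base change along the identity. -/
theorem semiUP_equiv {N₂ : Type u} [AddCommGroup N₂] [Module R N₂] (e : N ≃ₗ[R] N₂) :
    SemiUP (RingHom.id R) (e : N →ₗ[R] N₂) := by
  intro Q _ _ g
  refine ⟨g.comp (e.symm : N₂ →ₗ[R] N), fun n => by simp, fun y hy => ?_⟩
  ext n
  have := hy (e.symm n)
  simpa using this

end Semi

section Comp

variable {R R' R'' : Type u} [CommRing R] [CommRing R'] [CommRing R'']
    {ρ : R →+* R'} {σ : R' →+* R''} {τ : R →+* R''} [RingHomCompTriple ρ σ τ]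
    {N N' N'' : Type u} [AddCommGroup N] [Module R N] [AddCommGroup N'] [Module R' N']
    [AddCommGroup N''] [Module R'' N'']

/-- Composition of semilinear base changes. -/
theorem SemiUP.comp {b : N →ₛₗ[ρ] N'} {b' : N' →ₛₗ[σ] N''} (h : SemiUP ρ b)
    (h' : SemiUP σ b') : SemiUP τ (b'.comp b : N →ₛₗ[τ] N'') := by
  intro Q _ _ g
  obtain ⟨g₁, hg₁, -⟩ := h.existsUnique σ τ Q g
  obtain ⟨g₂, hg₂, huniq₂⟩ := h' Q g₁
  refine ⟨g₂, fun n => by rw [LinearMap.comp_apply, hg₂, hg₁], fun y hy => ?_⟩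
  apply huniq₂
  intro n'
  have : (y : N'' →ₗ[R''] Q).comp b' = g₁ := by
    apply h.hom_ext σ
    intro n
    rw [hg₁]
    exact hy n
  exact LinearMap.congr_fun this n'

/-- Cancellation: if `b` and `b' ∘ b` are base changes, so is `b'`. -/
theorem SemiUP.of_comp {b : N →ₛₗ[ρ] N'} {b' : N' →ₛₗ[σ] N''} (h : SemiUP ρ b)
    (hc : SemiUP τ (b'.comp b : N →ₛₗ[τ] N'')) : SemiUP σ b' := by
  intro Q _ _ g
  obtain ⟨g₂, hg₂, huniq₂⟩ := hc Q (g.comp b)
  refine ⟨g₂, ?_, fun y hy => ?_⟩
  · have : (g₂ : N'' →ₗ[R''] Q).comp b' = g := by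
      apply h.hom_ext σ
      intro n
      exact hg₂ n
    exact fun n' => LinearMap.congr_fun this n'
  · apply huniq₂
    intro n
    rw [LinearMap.comp_apply, LinearMap.comp_apply, hy]

end Comp

section Uniq

variable {R R' : Type u} [CommRing R] [CommRing R'] {ρ : R →+* R'}
    {N N' N'' : Type u} [AddCommGroup N] [Module R N] [AddCommGroup N'] [Module R' N']
    [AddCommGroup N''] [Module R' N'']

/-- Two base changes of the same module along the same ring map are canonically isomorphic. -/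
theorem SemiUP.exists_equiv {b : N →ₛₗ[ρ] N'} {b' : N →ₛₗ[ρ] N''} (h : SemiUP ρ b)
    (h' : SemiUP ρ b') : ∃ e : N' ≃ₗ[R'] N'', ∀ n, e (b n) = b' n := by
  obtain ⟨f, hf, -⟩ := h N'' b'
  obtain ⟨g, hg, -⟩ := h' N' b
  have hgf : g.comp f = LinearMap.id := by
    apply h.hom_ext (RingHom.id R')
    intro n
    simp [hf, hg]
  have hfg : f.comp g = LinearMap.id := by
    apply h'.hom_ext (RingHom.id R')
    intro n
    simp [hf, hg]
  exact ⟨LinearEquiv.ofLinearMap f g hfg hgf, hf⟩

/-- Post-composing a base change with a linear equivalence gives a base change. -/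
theorem SemiUP.comp_equiv {b : N →ₛₗ[ρ] N'} (h : SemiUP ρ b) (e : N' ≃ₗ[R'] N'') :
    SemiUP ρ ((e : N' →ₗ[R'] N'').comp b) :=
  h.comp (semiUP_equiv e)

/-- Pre-composing a base change with a linear equivalence gives a base change. -/
theorem SemiUP.equiv_comp {N₂ : Type u} [AddCommGroup N₂] [Module R N₂] {b : N →ₛₗ[ρ] N'}
    (h : SemiUP ρ b) (e : N₂ ≃ₗ[R] N) : SemiUP ρ (b.comp (e : N₂ →ₗ[R] N)) :=
  (semiUP_equiv e).comp h

end Uniq

end Fermat.Agent.S25.H265
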